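import Mathlib

set_option autoImplicit false
set_option linter.unusedSectionVars false
set_option linter.unnecessarySimpa false

noncomputable section

namespace Fermat.Agent.H04

open MvPowerSeries

section

variable {σ R : Type} [Finite σ] [CommRing R]

/-- the ideal generated by the variables -/
abbrev XI (σ R : Type) [CommRing R] : Ideal (MvPowerSeries σ R) :=
  Ideal.span (Set.range (MvPowerSeries.X : σ → MvPowerSeries σ R))

lemma map_idealOfVars :
    (MvPolynomial.idealOfVars σ R).map (algebraMap (MvPolynomial σ R) (MvPowerSeries σ R)) =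
      XI σ R := by
  rw [MvPolynomial.idealOfVars, Ideal.map_span, ← Set.range_comp]
  congr 1
  congr 1
  funext i
  exact MvPolynomial.coe_X i

lemma sub_trunc_mem (n : ℕ) (p : MvPowerSeries σ R) :
    p - ((truncTotal n p : MvPolynomial σ R) : MvPowerSeries σ R) ∈ XI σ R ^ n := by
  let I := MvPolynomial.idealOfVars σ R
  let e := toAdicCompletionAlgEquiv σ R
  have h1 : e (p - ((truncTotal n p : MvPolynomial σ R) : MvPowerSeries σ R)) ∈
      (AdicCompletion.eval I (MvPolynomial σ R) n).ker := by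
    rw [LinearMap.mem_ker, AdicCompletion.eval_apply, map_sub, AdicCompletion.val_sub_apply,
      sub_eq_zero]
    change _ = (toAdicCompletion σ R _).val n
    rw [toAdicCompletion_coe]
    rfl
  rw [← AdicCompletion.pow_smul_top_eq_ker_eval (MvPolynomial.idealOfVars_fg σ R)] at h1
  have h2 : p - ((truncTotal n p : MvPolynomial σ R) : MvPowerSeries σ R) ∈
      I ^ n • (⊤ : Submodule (MvPolynomial σ R) (MvPowerSeries σ R)) := by
    have := Submodule.mem_map_of_mem (f := e.symm.toLinearMap) h1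
    rw [Submodule.map_smul''] at this
    have h3 := Submodule.smul_mono (le_refl (I ^ n)) (le_top : _ ≤ (⊤ : Submodule _ _)) this
    simpa using h3
  rw [Ideal.smul_top_eq_map, Submodule.restrictScalars_mem, Ideal.map_pow, map_idealOfVars] at h2
  exact h2

variable {𝒪 : Type} [CommRing 𝒪] {B : Type} [CommRing B] [Algebra 𝒪 B]

lemma algHom_maps_pow (f : MvPowerSeries σ 𝒪 →ₐ[𝒪] B) (J : Ideal B) (hf : ∀ i, f (X i) ∈ J)
    (n : ℕ) {p : MvPowerSeries σ 𝒪} (hp : p ∈ XI σ 𝒪 ^ n) : f p ∈ J ^ n := by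
  have h1 : (XI σ 𝒪).map (f : MvPowerSeries σ 𝒪 →+* B) ≤ J := by
    rw [Ideal.map_span, Ideal.span_le]
    rintro _ ⟨_, ⟨i, rfl⟩, rfl⟩
    exact hf i
  have h2 : f p ∈ (XI σ 𝒪 ^ n).map (f : MvPowerSeries σ 𝒪 →+* B) := Ideal.mem_map_of_mem _ hp
  rw [Ideal.map_pow] at h2
  exact Ideal.pow_right_mono h1 n h2

/-- uniqueness of algebra homomorphisms from power series rings modulo `J ^ n` -/
lemma algHom_congr_pow (f g : MvPowerSeries σ 𝒪 →ₐ[𝒪] B) (J : Ideal B) (hf : ∀ i, f (X i) ∈ J)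
    (hfg : ∀ i, f (X i) = g (X i)) (n : ℕ) (p : MvPowerSeries σ 𝒪) : f p - g p ∈ J ^ n := by
  have h1 := algHom_maps_pow f J hf n (sub_trunc_mem n p)
  have h2 := algHom_maps_pow g J (fun i => hfg i ▸ hf i) n (sub_trunc_mem n p)
  have h3 : ∀ q : MvPolynomial σ 𝒪, f (q : MvPowerSeries σ 𝒪) = g (q : MvPowerSeries σ 𝒪) := by
    intro q
    have : f.comp (MvPolynomial.coeToMvPowerSeries.algHom 𝒪) =
        g.comp (MvPolynomial.coeToMvPowerSeries.algHom 𝒪) := by
      refine MvPolynomial.algHom_ext fun i => ?_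
      simp [hfg]
    have := congrArg (fun F => F q) this
    simpa using this
  have h4 := Ideal.sub_mem _ h1 h2
  rw [map_sub, map_sub, h3] at h4
  convert h4 using 1
  ring

lemma algHom_unique (f g : MvPowerSeries σ 𝒪 →ₐ[𝒪] B) (J : Ideal B) (hf : ∀ i, f (X i) ∈ J)
    (hfg : ∀ i, f (X i) = g (X i)) {n : ℕ} (hn : J ^ n = ⊥) : f = g := by
  ext p
  have := algHom_congr_pow f g J hf hfg n p
  rw [hn] at this
  exact sub_eq_zero.mp this

/-- existence of algebra homomorphisms from power series rings -/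
lemma exists_algHom (a : σ → B) (J : Ideal B) {n : ℕ} (hn : J ^ n = ⊥) (ha : ∀ i, a i ∈ J) :
    ∃ f : MvPowerSeries σ 𝒪 →ₐ[𝒪] B, ∀ i, f (X i) = a i := by
  let I := MvPolynomial.idealOfVars σ 𝒪
  have h1 : I.map ((MvPolynomial.aeval a : MvPolynomial σ 𝒪 →ₐ[𝒪] B) : _ →+* B) ≤ J := by
    rw [Ideal.map_span, Ideal.span_le]
    rintro _ ⟨_, ⟨i, rfl⟩, rfl⟩
    simpa using ha i
  have h2 : ∀ x ∈ I ^ n, (MvPolynomial.aeval a : MvPolynomial σ 𝒪 →ₐ[𝒪] B) x = 0 := by
    intro x hx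
    have h3 := Ideal.mem_map_of_mem
      ((MvPolynomial.aeval a : MvPolynomial σ 𝒪 →ₐ[𝒪] B) : _ →+* B) hx
    rw [Ideal.map_pow] at h3
    have h4 := Ideal.pow_right_mono h1 n h3
    rw [hn] at h4
    exact h4
  let q : MvPolynomial σ 𝒪 ⧸ I ^ n →ₐ[𝒪] B := Ideal.Quotient.liftₐ (I ^ n) (MvPolynomial.aeval a) h2
  let t : MvPowerSeries σ 𝒪 →ₐ[𝒪] MvPolynomial σ 𝒪 ⧸ I ^ n :=
    { toRingHom := (truncTotalAlgHom σ 𝒪 n : MvPowerSeries σ 𝒪 →+* _)
      commutes' := fun c => by
        have : (algebraMap 𝒪 (MvPowerSeries σ 𝒪) c) =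
          algebraMap (MvPolynomial σ 𝒪) (MvPowerSeries σ 𝒪) (MvPolynomial.C c) := by
          rw [MvPowerSeries.algebraMap_apply]
          exact (MvPolynomial.coe_C c).symm
        change truncTotalAlgHom σ 𝒪 n _ = _
        rw [this, AlgHom.commutes]
        rfl }
  refine ⟨q.comp t, fun i => ?_⟩
  have h5 : (X i : MvPowerSeries σ 𝒪) =
      algebraMap (MvPolynomial σ 𝒪) (MvPowerSeries σ 𝒪) (MvPolynomial.X i) :=
    (MvPolynomial.coe_X i).symm
  have h6 : t (X i) = Ideal.Quotient.mk (I ^ n) (MvPolynomial.X i) := by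
    change truncTotalAlgHom σ 𝒪 n _ = _
    rw [h5, AlgHom.commutes]
    rfl
  rw [AlgHom.comp_apply, h6]
  change (MvPolynomial.aeval a : MvPolynomial σ 𝒪 →ₐ[𝒪] B) (MvPolynomial.X i) = a i
  rw [MvPolynomial.aeval_X]

end

end Fermat.Agent.H04

end
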