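import Mathlib
import Fermat.Prelude.Def_GaloisRep_DeformationRingData
import Fermat.Prelude.Def_GaloisRep_DeformationCondition

set_option autoImplicit false
set_option linter.unusedSectionVars false
set_option linter.unnecessarySimpa false

noncomputable section

namespace Fermat.Agent.H04

open IsLocalRing TensorProduct

/-- the absolute Galois group of `ℚ` -/
abbrev GQ := AlgebraicClosure ℚ ≃ₐ[ℚ] AlgebraicClosure ℚ

/-- The ring of `2 × 2` matrices. -/
abbrev M2 (A : Type) := Matrix (Fin 2) (Fin 2) A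

section basic

lemma mem_smul_top_of_forall {A : Type} [CommRing A] (I : Ideal A) (v : Fin 2 → A)
    (h : ∀ i, v i ∈ I) :
    v ∈ I • (⊤ : Submodule A (Fin 2 → A)) := by
  have : v = ∑ i, v i • (Pi.single i (1 : A) : Fin 2 → A) := by
    ext j
    fin_cases j <;> simp
  rw [this]
  exact Submodule.sum_mem _ fun i _ => Submodule.smul_mem_smul (h i) Submodule.mem_top

lemma forall_of_mem_smul_top {A : Type} [CommRing A] (I : Ideal A) (v : Fin 2 → A)
    (h : v ∈ I • (⊤ : Submodule A (Fin 2 → A))) (i : Fin 2) : v i ∈ I := by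
  induction h using Submodule.smul_induction_on' with
  | smul r hr n hn => exact Ideal.mul_mem_right _ _ hr
  | add x hx y hy hx' hy' => exact Ideal.add_mem _ hx' hy'

variable {A : Type} [CommRing A] [IsLocalRing A]

/-- adic continuity of a matrix representation -/
def IsCont (r : GQ →* M2 A) : Prop :=
  ∀ n : ℕ, ∃ L : IntermediateField ℚ (AlgebraicClosure ℚ), FiniteDimensional ℚ L ∧
    ∀ σ : GQ, (∀ x ∈ L, σ x = x) → ∀ i j, r σ i j - (1 : M2 A) i j ∈ maximalIdeal A ^ n

/-- the Galois representation attached to a continuous matrix representation -/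
def ofMat (r : GQ →* M2 A) (hr : IsCont r) : GaloisRepAdic A where
  V := Fin 2 → A
  finrank_eq := by simp
  ρ := ((Matrix.toLinAlgEquiv' : M2 A ≃ₐ[A] _) : M2 A →* Module.End A (Fin 2 → A)).comp r
  isAdicContinuous := by
    intro n
    obtain ⟨L, hL, h⟩ := hr n
    refine ⟨L, hL, fun σ hσ v => mem_smul_top_of_forall _ _ fun i => ?_⟩
    have h2 := h σ hσ
    have : (((Matrix.toLinAlgEquiv' : M2 A ≃ₐ[A] _) : M2 A →* Module.End A (Fin 2 → A)).comp r) σ v
        - v = (r σ - 1).mulVec v := by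
      rw [Matrix.sub_mulVec, Matrix.one_mulVec]
      rfl
    rw [this, Matrix.mulVec, dotProduct]
    exact Ideal.sum_mem _ fun j _ => Ideal.mul_mem_right _ _ (by simpa using h2 i j)

lemma ofMat_apply (r : GQ →* M2 A) (hr : IsCont r) (σ : GQ) (v : Fin 2 → A) :
    (ofMat r hr).ρ σ v = (r σ).mulVec v := rfl

variable {B : Type} [CommRing B] [IsLocalRing B]

/-- push forward a matrix representation along a ring homomorphism -/
def mapM {A B : Type} [CommRing A] [CommRing B] (φ : A →+* B) (r : GQ →* M2 A) : GQ →* M2 B :=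
  (RingHom.mapMatrix (m := Fin 2) φ).toMonoidHom.comp r

@[simp] lemma mapM_apply {A B : Type} [CommRing A] [CommRing B] (φ : A →+* B) (r : GQ →* M2 A)
    (σ : GQ) (i j : Fin 2) : mapM φ r σ i j = φ (r σ i j) := rfl

lemma IsCont.map {r : GQ →* M2 A} (hr : IsCont r) (φ : A →+* B) (hφ : IsLocalHom φ) :
    IsCont (mapM φ r) := by
  intro n
  obtain ⟨L, hL, h⟩ := hr n
  refine ⟨L, hL, fun σ hσ i j => ?_⟩
  have hmap : (IsLocalRing.maximalIdeal A ^ n).map φ ≤ IsLocalRing.maximalIdeal B ^ n := by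
    rw [Ideal.map_pow]
    exact Ideal.pow_right_mono (Ideal.map_le_iff_le_comap.mpr fun a ha =>
      Ideal.mem_comap.mpr (haveI := hφ; map_nonunit φ a ha)) n
  have h1 := hmap (Ideal.mem_map_of_mem φ (h σ hσ i j))
  have h2 : φ (r σ i j - (1 : M2 A) i j) = mapM φ r σ i j - (1 : M2 B) i j := by
    rw [map_sub, mapM_apply]
    congr 1
    by_cases hij : i = j
    · subst hij; simp
    · simp [hij]
  rwa [h2] at h1

theorem piScalarRight_baseChange {A B : Type} [CommRing A] [CommRing B] [Algebra A B]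
    (M : M2 A) (x : B ⊗[A] (Fin 2 → A)) :
    TensorProduct.piScalarRight A B B (Fin 2) ((Matrix.toLin' M).baseChange B x) =
    ((algebraMap A B).mapMatrix M).mulVec (TensorProduct.piScalarRight A B B (Fin 2) x) := by
  induction x using TensorProduct.induction_on with
  | zero => simp only [map_zero, Matrix.mulVec_zero]
  | add x y hx hy => rw [map_add, map_add, map_add, Matrix.mulVec_add, hx, hy]
  | tmul b v =>
    rw [LinearMap.baseChange_tmul, Matrix.toLin'_apply]
    ext i
    simp only [TensorProduct.piScalarRight_apply, TensorProduct.piScalarRightHom_tmul,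
      Matrix.mulVec, dotProduct, Finset.sum_smul]
    refine Finset.sum_congr rfl fun j _ => ?_
    rw [mul_smul, Algebra.smul_def]
    rfl

/-- Base change of a matrix representation. -/
theorem ofMat_baseChange (r : GQ →* M2 A) (hr : IsCont r) (φ : A →+* B) (hφ : IsLocalHom φ) :
    ((ofMat r hr).baseChangeAlong φ hφ).IsEquiv (ofMat (mapM φ r) (hr.map φ hφ)) := by
  let : Algebra A B := φ.toAlgebra
  exact ⟨⟨TensorProduct.piScalarRight A B B (Fin 2), fun σ x =>
    piScalarRight_baseChange (r σ) x⟩⟩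

/-- Equivalence of matrix representations in terms of intertwining matrices. -/
theorem exists_matrix_of_isEquiv {r r' : GQ →* M2 A} {hr : IsCont r} {hr' : IsCont r'}
    (h : (ofMat r hr).IsEquiv (ofMat r' hr')) :
    ∃ P : M2 A, IsUnit P ∧ ∀ σ, P * r σ = r' σ * P := by
  obtain ⟨e, he⟩ := h
  change (Fin 2 → A) ≃ₗ[A] (Fin 2 → A) at e
  refine ⟨LinearMap.toMatrix' e.toLinearMap, ?_, fun σ => ?_⟩
  · rw [Matrix.isUnit_iff_isUnit_det]
    exact LinearEquiv.isUnit_det' (f := e) |> fun h => by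
      rwa [← LinearMap.det_toMatrix'] at h
  · have : ∀ v : Fin 2 → A, (LinearMap.toMatrix' e.toLinearMap * r σ).mulVec v =
      (r' σ * LinearMap.toMatrix' e.toLinearMap).mulVec v := by
      intro v
      rw [← Matrix.mulVec_mulVec, ← Matrix.mulVec_mulVec]
      have := he σ v
      rw [LinearMap.toMatrix'_mulVec, LinearMap.toMatrix'_mulVec]
      exact this
    exact Matrix.ext_of_mulVec_single fun i => this _

theorem isEquiv_of_matrix {r r' : GQ →* M2 A} (hr : IsCont r) (hr' : IsCont r')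
    (P : M2 A) (hP : IsUnit P) (h : ∀ σ, P * r σ = r' σ * P) :
    (ofMat r hr).IsEquiv (ofMat r' hr') := by
  obtain ⟨u, rfl⟩ := hP
  let e : (Fin 2 → A) ≃ₗ[A] (Fin 2 → A) := LinearEquiv.ofLinearMap
    (Matrix.toLin' (u : M2 A)) (Matrix.toLin' ((u⁻¹ : (M2 A)ˣ) : M2 A))
    (by rw [← Matrix.toLin'_mul, Units.mul_inv, Matrix.toLin'_one])
    (by rw [← Matrix.toLin'_mul, Units.inv_mul, Matrix.toLin'_one])
  refine ⟨⟨e, fun σ x => ?_⟩⟩
  change (u : M2 A).mulVec ((r σ).mulVec x) = (r' σ).mulVec ((u : M2 A).mulVec x)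
  rw [Matrix.mulVec_mulVec, Matrix.mulVec_mulVec, h]

end basic

section dat

variable (𝒪 : Type) [CommRing 𝒪] [IsLocalRing 𝒪]

/-- Fixed auxiliary data: lifts `cf` of the matrix coefficients of the residual representation, and
two elements `x`, `f` of the group algebra acting residually as the matrix units `e₁₁`, `e₁₂`. -/
structure Dat where
  cf : GQ → Fin 2 → Fin 2 → 𝒪
  x : GQ →₀ 𝒪
  f : GQ →₀ 𝒪
  hx : ∀ i j, (x.sum fun g c => c * cf g i j) - (if i = 0 ∧ j = 0 then 1 else 0) ∈ maximalIdeal 𝒪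
  hf : ∀ i j, (f.sum fun g c => c * cf g i j) - (if i = 0 ∧ j = 1 then 1 else 0) ∈ maximalIdeal 𝒪

variable {𝒪}

/-- the action of the group algebra -/
def act {A : Type} [CommRing A] [Algebra 𝒪 A] (r : GQ →* M2 A) (x : GQ →₀ 𝒪) : M2 A :=
  x.sum fun g c => c • r g

lemma act_apply {A : Type} [CommRing A] [Algebra 𝒪 A] (r : GQ →* M2 A) (x : GQ →₀ 𝒪)
    (i j : Fin 2) : act r x i j = x.sum fun g c => algebraMap 𝒪 A c * r g i j := by
  simp only [act, Finsupp.sum, Matrix.sum_apply, Matrix.smul_apply]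
  simp only [Algebra.smul_def]

lemma act_mapM {A B : Type} [CommRing A] [CommRing B] [Algebra 𝒪 A] [Algebra 𝒪 B] (φ : A →ₐ[𝒪] B)
    (r : GQ →* M2 A) (x : GQ →₀ 𝒪) (i j : Fin 2) :
    act (mapM (φ : A →+* B) r) x i j = φ (act r x i j) := by
  simp only [act_apply, Finsupp.sum, map_sum, map_mul, mapM_apply, AlgHom.commutes,
    RingHom.coe_coe]

lemma act_conj {A : Type} [CommRing A] [Algebra 𝒪 A] {r r' : GQ →* M2 A} {P : M2 A}
    (h : ∀ σ, P * r σ = r' σ * P) (x : GQ →₀ 𝒪) : P * act r x = act r' x * P := by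
  simp only [act, Finsupp.sum, Finset.mul_sum, Finset.sum_mul, mul_smul_comm, smul_mul_assoc, h]

variable {A : Type} [CommRing A] [IsLocalRing A] [Algebra 𝒪 A]

lemma act_red {D : Dat 𝒪} {r : GQ →* M2 A}
    (red : ∀ σ i j, r σ i j - algebraMap 𝒪 A (D.cf σ i j) ∈ maximalIdeal A) (x : GQ →₀ 𝒪)
    (i j : Fin 2) :
    act r x i j - algebraMap 𝒪 A (x.sum fun g c => c * D.cf g i j) ∈ maximalIdeal A := by
  simp only [act_apply, Finsupp.sum, map_sum, map_mul, ← Finset.sum_sub_distrib, ← mul_sub]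
  exact Ideal.sum_mem _ fun g _ => Ideal.mul_mem_left _ _ (red g i j)

/-- normalised matrix representations -/
structure IsNRep (D : Dat 𝒪) (r : GQ →* M2 A) : Prop where
  cont : IsCont r
  red : ∀ σ i j, r σ i j - algebraMap 𝒪 A (D.cf σ i j) ∈ maximalIdeal A
  n01 : act r D.x 0 1 = 0
  n10 : act r D.x 1 0 = 0
  nf : act r D.f 0 1 = 1

lemma act_x_red {D : Dat 𝒪} {r : GQ →* M2 A} (hloc : IsLocalHom (algebraMap 𝒪 A))
    (red : ∀ σ i j, r σ i j - algebraMap 𝒪 A (D.cf σ i j) ∈ maximalIdeal A) (i j : Fin 2) :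
    act r D.x i j - (if i = 0 ∧ j = 0 then 1 else 0) ∈ maximalIdeal A := by
  have h1 := act_red red D.x i j
  have h2 : algebraMap 𝒪 A ((D.x.sum fun g c => c * D.cf g i j) -
      (if i = 0 ∧ j = 0 then 1 else 0)) ∈ maximalIdeal A := by
    have := D.hx i j
    rw [IsLocalRing.mem_maximalIdeal, mem_nonunits_iff] at this ⊢
    exact fun h => this (hloc.map_nonunit _ h)
  have h3 := Ideal.add_mem _ h1 h2
  rw [map_sub] at h3
  convert h3 using 1
  split_ifs <;> simp

lemma act_f_red {D : Dat 𝒪} {r : GQ →* M2 A} (hloc : IsLocalHom (algebraMap 𝒪 A))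
    (red : ∀ σ i j, r σ i j - algebraMap 𝒪 A (D.cf σ i j) ∈ maximalIdeal A) (i j : Fin 2) :
    act r D.f i j - (if i = 0 ∧ j = 1 then 1 else 0) ∈ maximalIdeal A := by
  have h1 := act_red red D.f i j
  have h2 : algebraMap 𝒪 A ((D.f.sum fun g c => c * D.cf g i j) -
      (if i = 0 ∧ j = 1 then 1 else 0)) ∈ maximalIdeal A := by
    have := D.hf i j
    rw [IsLocalRing.mem_maximalIdeal, mem_nonunits_iff] at this ⊢
    exact fun h => this (hloc.map_nonunit _ h)
  have h3 := Ideal.add_mem _ h1 h2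
  rw [map_sub] at h3
  convert h3 using 1
  split_ifs <;> simp

lemma isUnit_of_sub_one_mem {a : A} (h : a - 1 ∈ maximalIdeal A) : IsUnit a := by
  by_contra ha
  have h1 : a ∈ maximalIdeal A := ha
  have : (1 : A) ∈ maximalIdeal A := by
    have := Ideal.sub_mem _ h1 h
    simpa using this
  exact (Ideal.ne_top_iff_one _).mp (IsLocalRing.maximalIdeal.isMaximal A).ne_top this

lemma isUnit_sub_of_mem {a b : A} (h : a - 1 ∈ maximalIdeal A) (hb : b ∈ maximalIdeal A) :
    IsUnit (a - b) := by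
  apply isUnit_of_sub_one_mem
  have := Ideal.sub_mem _ h hb
  convert this using 1
  ring

/-- Rigidity: normalised matrix representations which are isomorphic are equal. -/
theorem IsNRep.eq_of_isEquiv {D : Dat 𝒪} {r r' : GQ →* M2 A} (hloc : IsLocalHom (algebraMap 𝒪 A))
    (h : IsNRep D r) (h' : IsNRep D r')
    (e : (ofMat r h.cont).IsEquiv (ofMat r' h'.cont)) : r = r' := by
  obtain ⟨P, hP, hc⟩ := exists_matrix_of_isEquiv e
  have hx := act_conj hc D.x
  have hf := act_conj hc D.f
  have x00 := act_x_red hloc h.red 0 0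
  have x11 := act_x_red hloc h.red 1 1
  have x00' := act_x_red hloc h'.red 0 0
  have x11' := act_x_red hloc h'.red 1 1
  have e01 := congrFun (congrFun hx 0) 1
  have e10 := congrFun (congrFun hx 1) 0
  have f01 := congrFun (congrFun hf 0) 1
  simp only [Matrix.mul_apply, Fin.sum_univ_two, h.n01, h.n10, h'.n01, h'.n10, mul_zero,
    zero_mul, add_zero, zero_add, h.nf, h'.nf, mul_one, one_mul] at e01 e10 f01
  simp at x00 x11 x00' x11'
  have hP01 : P 0 1 = 0 := by
    have hu : IsUnit (act r' D.x 0 0 - act r D.x 1 1) :=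
      isUnit_sub_of_mem (by simpa using x00') (by simpa using x11)
    have : (act r' D.x 0 0 - act r D.x 1 1) * P 0 1 = 0 := by
      linear_combination -e01
    exact (hu.mul_right_eq_zero).mp this
  have hP10 : P 1 0 = 0 := by
    have hu : IsUnit (act r D.x 0 0 - act r' D.x 1 1) :=
      isUnit_sub_of_mem (by simpa using x00) (by simpa using x11')
    have : (act r D.x 0 0 - act r' D.x 1 1) * P 1 0 = 0 := by
      linear_combination e10
    exact (hu.mul_right_eq_zero).mp this
  rw [hP01, zero_mul, add_zero] at f01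
  have hdet : IsUnit (P 0 0 * P 1 1) := by
    have := (Matrix.isUnit_iff_isUnit_det P).mp hP
    rwa [Matrix.det_fin_two, hP01, zero_mul, sub_zero] at this
  have hPs : P = (P 0 0) • (1 : M2 A) := by
    ext i j
    fin_cases i <;> fin_cases j <;> simp [hP01, hP10, f01]
  have hP00 : IsUnit (P 0 0) := isUnit_of_mul_isUnit_left hdet
  ext σ i j
  have := congrFun (congrFun (hc σ) i) j
  rw [hPs] at this
  simp only [smul_mul_assoc, one_mul, mul_smul_comm, mul_one, Matrix.smul_apply, smul_eq_mul]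
    at this
  exact hP00.mul_left_cancel this

lemma IsNRep.map {B : Type} [CommRing B] [IsLocalRing B] [Algebra 𝒪 B] {D : Dat 𝒪}
    {r : GQ →* M2 A} (h : IsNRep D r) (φ : A →ₐ[𝒪] B) (hφ : IsLocalHom (φ : A →+* B)) :
    IsNRep D (mapM (φ : A →+* B) r) where
  cont := h.cont.map _ hφ
  red σ i j := by
    have h1 := h.red σ i j
    have h2 : φ (r σ i j - algebraMap 𝒪 A (D.cf σ i j)) ∈ maximalIdeal B := by
      rw [IsLocalRing.mem_maximalIdeal, mem_nonunits_iff] at h1 ⊢
      exact fun h => h1 (hφ.map_nonunit _ h)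
    rw [map_sub, AlgHom.commutes] at h2
    exact h2
  n01 := by rw [act_mapM, h.n01, map_zero]
  n10 := by rw [act_mapM, h.n10, map_zero]
  nf := by rw [act_mapM, h.nf, map_one]

end dat

end Fermat.Agent.H04

end
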