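import Fermat.Agent.DefRing.Residual

set_option autoImplicit false
set_option linter.unusedSectionVars false
set_option linter.unnecessarySimpa false

noncomputable section

namespace Fermat.Agent.H04

/-- Burnside's theorem: the image of an irreducible representation over an algebraically closed
field spans the full endomorphism ring. -/
theorem span_range_eq_top_of_irreducible {K V G : Type*} [Field K] [IsAlgClosed K] [AddCommGroup V]
    [Module K V] [FiniteDimensional K V] [Nontrivial V] [Monoid G] (ρ : G →* Module.End K V)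
    (hirr : ∀ W : Submodule K V, (∀ g, ∀ x ∈ W, ρ g x ∈ W) → W = ⊥ ∨ W = ⊤) :
    Submodule.span K (Set.range ρ) = ⊤ := by
  classical
  let S : Subalgebra K (Module.End K V) := Algebra.adjoin K (Set.range ρ)
  have hS : Subalgebra.toSubmodule S = Submodule.span K (Set.range ρ) := by
    rw [Algebra.adjoin_eq_span]
    congr 1
    have : Set.range ρ = (MonoidHom.mrange ρ : Set (Module.End K V)) := by
      rw [MonoidHom.coe_mrange]
    rw [this, Submonoid.closure_eq]
  have hsimp : IsSimpleModule S V := by
    rw [isSimpleModule_iff]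
    refine { eq_bot_or_eq_top := fun N => ?_ }
    have h1 := hirr (N.restrictScalars K) (fun g x hx => by
      exact N.smul_mem (⟨ρ g, Algebra.subset_adjoin ⟨g, rfl⟩⟩ : S) hx)
    rcases h1 with h1 | h1
    · left
      exact (Submodule.restrictScalars_eq_bot_iff K S V).mp h1
    · right
      exact (Submodule.restrictScalars_eq_top_iff K S V).mp h1
  rw [← hS, eq_top_iff]
  rintro T -
  have hschur : Function.Bijective (algebraMap K (Module.End S V)) :=
    IsSimpleModule.algebraMap_end_bijective_of_isAlgClosed K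
  let f : Module.End (Module.End S V) V :=
    { toFun := T
      map_add' := T.map_add
      map_smul' := fun φ v => by
        obtain ⟨c, rfl⟩ := hschur.2 φ
        have : ∀ w : V, (algebraMap K (Module.End S V) c) • w = c • w := fun w => rfl
        rw [this, RingHom.id_apply, this, map_smul] }
  let b := Module.finBasis K V
  obtain ⟨r, hr⟩ := jacobson_density (R := S) (M := V) f (Finset.univ.image b)
  have : T = r.1 := by
    refine b.ext fun i => ?_
    exact hr (b i) (by simp)
  rw [this]
  exact r.2

open IsLocalRing TensorProduct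

theorem span_toMatrix_eq_top {k : Type} [Field k] (ρ : ResidualGaloisRep k)
    (habs : ρ.IsAbsolutelyIrreducible) (b : Module.Basis (Fin 2) k ρ.V) :
    Submodule.span k (Set.range fun σ : GQ => LinearMap.toMatrix b b (ρ.ρ σ)) = ⊤ := by
  by_contra hne
  obtain ⟨l, hl0, hl⟩ := Submodule.exists_le_ker_of_lt_top _ (lt_top_iff_ne_top.mpr hne)
  let K := AlgebraicClosure k
  let ρ' : GQ →* Module.End K (K ⊗[k] ρ.V) := (ρ.baseChange K).ρ
  have hρ' : ∀ σ, ρ' σ = (ρ.ρ σ).baseChange K := fun σ => rfl
  have hfin : Module.finrank K (K ⊗[k] ρ.V) = 2 := (ρ.baseChange K).finrank_eq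
  have hnt : Nontrivial (K ⊗[k] ρ.V) := Module.nontrivial_of_finrank_pos (R := K) (by omega)
  have hspan := span_range_eq_top_of_irreducible (K := K) (V := K ⊗[k] ρ.V) ρ' habs
  let b' : Module.Basis (Fin 2) K (K ⊗[k] ρ.V) := Algebra.TensorProduct.basis K b
  -- the extended functional
  let L : M2 K →ₗ[K] K := ∑ i, ∑ j, (algebraMap k K (l (Matrix.single i j 1))) •
    Matrix.entryLinearMap K K i j
  have hL : ∀ M : M2 k, L (M.map (algebraMap k K)) = algebraMap k K (l M) := by
    intro M
    conv_rhs => rw [Matrix.matrix_eq_sum_single M]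
    simp only [L, LinearMap.sum_apply, LinearMap.smul_apply, Matrix.entryLinearMap_apply,
      Matrix.map_apply, map_sum, smul_eq_mul]
    refine Finset.sum_congr rfl fun i _ => Finset.sum_congr rfl fun j _ => ?_
    rw [← map_mul]
    congr 1
    have : Matrix.single i j (M i j) = M i j • Matrix.single i j (1 : k) := by
      rw [Matrix.smul_single, smul_eq_mul, mul_one]
    rw [this, map_smul, smul_eq_mul, mul_comm]
  have hker : ∀ T : Module.End K (K ⊗[k] ρ.V), L (LinearMap.toMatrix b' b' T) = 0 := by
    intro T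
    have hT : T ∈ Submodule.span K (Set.range ρ') := by rw [hspan]; trivial
    induction hT using Submodule.span_induction with
    | mem x hx =>
      obtain ⟨σ, rfl⟩ := hx
      rw [hρ', LinearMap.toMatrix_baseChange, hL]
      have : LinearMap.toMatrix b b (ρ.ρ σ) ∈ LinearMap.ker l :=
        hl (Submodule.subset_span ⟨σ, rfl⟩)
      rw [LinearMap.mem_ker] at this
      rw [this, map_zero]
    | zero => simp
    | add x y _ _ hx hy => rw [map_add, map_add, hx, hy, add_zero]
    | smul c x _ hx => rw [map_smul, map_smul, hx, smul_zero]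
  apply hl0
  ext M
  have h1 := hker (Matrix.toLin b' b' (M.map (algebraMap k K)))
  rw [LinearMap.toMatrix_toLin, hL] at h1
  simpa using h1

theorem exists_dat {𝒪 : Type} [CommRing 𝒪] [IsLocalRing 𝒪]
    (ρbar : ResidualGaloisRep (ResidueField 𝒪)) (habs : ρbar.IsAbsolutelyIrreducible) :
    ∃ (b : Module.Basis (Fin 2) (ResidueField 𝒪) ρbar.V) (D : Dat 𝒪), Compat D ρbar b := by
  let b : Module.Basis (Fin 2) (ResidueField 𝒪) ρbar.V :=
    Module.finBasisOfFinrankEq (ResidueField 𝒪) ρbar.V ρbar.finrank_eq
  have hspan := span_toMatrix_eq_top ρbar habs b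
  let cf : GQ → Fin 2 → Fin 2 → 𝒪 := fun σ i j =>
    Function.surjInv (residue_surjective (R := 𝒪)) (LinearMap.toMatrix b b (ρbar.ρ σ) i j)
  have hcf : ∀ σ i j, residue 𝒪 (cf σ i j) = LinearMap.toMatrix b b (ρbar.ρ σ) i j :=
    fun σ i j => Function.surjInv_eq _ _
  have key : ∀ M : M2 (ResidueField 𝒪), ∃ x : GQ →₀ 𝒪, ∀ i j,
      residue 𝒪 (x.sum fun g c => c * cf g i j) = M i j := by
    intro M
    have hM : M ∈ Submodule.span (ResidueField 𝒪)
        (Set.range fun σ : GQ => LinearMap.toMatrix b b (ρbar.ρ σ)) := by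
      rw [hspan]; trivial
    obtain ⟨y, hy⟩ := (Finsupp.mem_span_range_iff_exists_finsupp).mp hM
    obtain ⟨x, rfl⟩ := Finsupp.mapRange_surjective (α := GQ) (residue 𝒪) (map_zero _)
      (residue_surjective (R := 𝒪)) y
    refine ⟨x, fun i j => ?_⟩
    rw [← hy, Finsupp.sum_mapRange_index (by simp)]
    simp only [Finsupp.sum, map_sum, map_mul, Matrix.sum_apply, Matrix.smul_apply, hcf,
      smul_eq_mul]
  obtain ⟨x, hx⟩ := key !![1, 0; 0, 0]
  obtain ⟨f, hf⟩ := key !![0, 1; 0, 0]
  refine ⟨b, ⟨cf, x, f, fun i j => ?_, fun i j => ?_⟩, hcf⟩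
  · rw [← residue_eq_zero_iff, map_sub, hx]
    fin_cases i <;> fin_cases j <;> simp
  · rw [← residue_eq_zero_iff, map_sub, hf]
    fin_cases i <;> fin_cases j <;> simp

end Fermat.Agent.H04

end
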