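import Fermat.Agent.DefRing.Univ3
import Fermat.Agent.DefRing.Burnside

set_option autoImplicit false
set_option linter.unusedSectionVars false
set_option linter.unnecessarySimpa false

noncomputable section

namespace Fermat.Agent.H04

open IsLocalRing GaloisRep

variable {𝒪 : Type} [CommRing 𝒪] [IsLocalRing 𝒪]
  {𝒟 : ∀ ⦃A : Type⦄ [CommRing A] [IsLocalRing A] [Algebra 𝒪 A], GaloisRepAdic A → Prop}
  {D : Dat 𝒪} {ϖ : 𝒪} {S : Finset Idx} [IsNoetherianRing 𝒪]

omit [IsNoetherianRing 𝒪] in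
lemma isLocalHom_comp_alg {A B C : Type} [CommRing A] [CommRing B] [CommRing C] [Algebra 𝒪 A]
    [Algebra 𝒪 B] [Algebra 𝒪 C] (f : A →ₐ[𝒪] B) (g : B →ₐ[𝒪] C)
    (hf : IsLocalHom (f : A →+* B)) (hg : IsLocalHom (g : B →+* C)) :
    IsLocalHom ((g.comp f : A →ₐ[𝒪] C) : A →+* C) :=
  ⟨fun x hx => hf.map_nonunit x (hg.map_nonunit _ hx)⟩

/-- the universal representation is of type `𝒟` -/
theorem type_rU (c : Ctx 𝒟 D ϖ S) : 𝒟 (ofMat (rU c) (isNRep_rU c).cont) := by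
  have hpre := preTest_RU c
  refine (c.h𝒟.iff_forall_surjective (preTest_iff.mp hpre).1 (preTest_iff.mp hpre).2 _).mpr ?_
  intro B _ _ _ hB q hq hsurj
  have := hB.isArtinian
  obtain ⟨n, hnil⟩ := (isArtinianRing_iff_isNilpotent_maximalIdeal B).mp inferInstance
  have hloc := (good_seq c n).loc
  -- `q` factors through the `n`-th projection
  have hker : ∀ y ∈ Iseq c n, q (Ideal.Quotient.mk (Jid c) y) = 0 := by
    intro y hy
    have h1 : Ideal.Quotient.mk (Jid c) y ∈ maximalIdeal (RU c) ^ (n + 1) := by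
      refine mem_pow_of_prU_eq_zero c n ?_
      rw [prU_mk]
      exact Ideal.Quotient.eq_zero_iff_mem.mpr hy
    have h2 : (maximalIdeal (RU c)).map (q : RU c →+* B) ≤ maximalIdeal B :=
      ((IsLocalRing.local_hom_TFAE (q : RU c →+* B)).out 0 2).mp hq
    have h3 := Ideal.mem_map_of_mem (q : RU c →+* B) h1
    rw [Ideal.map_pow] at h3
    have h4 := Ideal.pow_le_pow_right (Nat.le_succ n) (Ideal.pow_right_mono h2 (n + 1) h3)
    rw [hnil] at h4
    exact h4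
  let q' : (Lam 𝒪 S ⧸ Iseq c n) →ₐ[𝒪] B :=
    Ideal.Quotient.liftₐ (Iseq c n) (q.comp (Ideal.Quotient.mkₐ 𝒪 (Jid c))) hker
  have hq' : q'.comp (prU c n) = q := by
    ext x
    obtain ⟨y, rfl⟩ := Ideal.Quotient.mk_surjective x
    rfl
  have hsurj' : Function.Surjective q' := by
    intro b
    obtain ⟨x, rfl⟩ := hsurj b
    exact ⟨prU c n x, congrArg (fun F => F x) hq'⟩
  have hloc' := isLocalHom_of_surj q' hsurj'
  have h1 := (good_seq c n).type.map c.h𝒟 (good_seq c n).test hB q' hloc'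
  have h2 : mapM (q' : (Lam 𝒪 S ⧸ Iseq c n) →+* B) (rseq c n) = mapM (q : RU c →+* B) (rU c) := by
    rw [← rU_spec, mapM_comp, ← hq']
    rfl
  rw [h2] at h1
  obtain ⟨hc, hd⟩ := h1
  obtain ⟨e⟩ := ofMat_baseChange (rU c) (isNRep_rU c).cont (q : RU c →+* B) hq
  exact c.h𝒟.of_isEquiv hB ⟨e.symm⟩ hd

/-- existence for complete noetherian algebras -/
theorem exists_hom (c : Ctx 𝒟 D ϖ S) {A : Type} [CommRing A] [IsLocalRing A] [IsNoetherianRing A]
    [IsAdicComplete (maximalIdeal A) A] [Algebra 𝒪 A] (hA : PreTest 𝒪 A) {r : GQ →* M2 A}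
    (hr : IsNRep D r) (hd : 𝒟 (ofMat r hr.cont)) :
    ∃ φ : RU c →ₐ[𝒪] A, IsLocalHom (φ : RU c →+* A) ∧ mapM (φ : RU c →+* A) (rU c) = r := by
  have hk := c.hk
  have hnt : ∀ n : ℕ, maximalIdeal A ^ (n + 1) ≠ ⊤ := fun n h =>
    (IsLocalRing.maximalIdeal.isMaximal A).ne_top
      (top_le_iff.mp (h ▸ Ideal.pow_le_self (Nat.succ_ne_zero n)))
  have hloc : ∀ n : ℕ, IsLocalRing (A ⧸ maximalIdeal A ^ (n + 1)) := fun n =>
    isLocalRing_quotient _ (hnt n)
  have htest : ∀ n : ℕ, IsArtinianTestAlgebra 𝒪 (A ⧸ maximalIdeal A ^ (n + 1)) := fun n =>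
    test_quotient_pow hA (n + 1)
  have hmk : ∀ n : ℕ, IsLocalHom ((Ideal.Quotient.mkₐ 𝒪 (maximalIdeal A ^ (n + 1)) :
      A →ₐ[𝒪] A ⧸ maximalIdeal A ^ (n + 1)) : A →+* A ⧸ maximalIdeal A ^ (n + 1)) := fun n =>
    isLocalHom_of_surj _ (Ideal.Quotient.mkₐ_surjective _ _)
  have hnrep : ∀ n : ℕ, IsNRep D (mapM ((Ideal.Quotient.mkₐ 𝒪 (maximalIdeal A ^ (n + 1)) :
      A →ₐ[𝒪] A ⧸ maximalIdeal A ^ (n + 1)) : A →+* A ⧸ maximalIdeal A ^ (n + 1)) r) := fun n => hr.map _ (hmk n)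
  have htype : ∀ n : ℕ, HasType 𝒟 (mapM ((Ideal.Quotient.mkₐ 𝒪 (maximalIdeal A ^ (n + 1)) :
      A →ₐ[𝒪] A ⧸ maximalIdeal A ^ (n + 1)) : A →+* A ⧸ maximalIdeal A ^ (n + 1)) r) := by
    intro n
    have h1 := (c.h𝒟.iff_forall_surjective (preTest_iff.mp hA).1 (preTest_iff.mp hA).2 _).mp hd
      (htest n) (Ideal.Quotient.mkₐ 𝒪 (maximalIdeal A ^ (n + 1))) (hmk n)
      (Ideal.Quotient.mkₐ_surjective _ _)
    exact ⟨hr.cont.map _ (hmk n), c.h𝒟.of_isEquiv (htest n)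
      (ofMat_baseChange r hr.cont _ (hmk n)) h1⟩
  choose g hgl hg using fun n => exists_hom_artin c (htest n) (hnrep n) (htype n)
  have hcompat : ∀ {m n : ℕ} (h : m ≤ n),
      (Ideal.Quotient.factorₐ 𝒪 (Ideal.pow_le_pow_right (I := maximalIdeal A)
        (Nat.succ_le_succ h))).comp (g n) = g m := by
    intro m n h
    have hl : IsLocalHom (((Ideal.Quotient.factorₐ 𝒪 (Ideal.pow_le_pow_right (I := maximalIdeal A)
        (Nat.succ_le_succ h))).comp (g n) : RU c →ₐ[𝒪] A ⧸ maximalIdeal A ^ (m + 1)) :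
        RU c →+* A ⧸ maximalIdeal A ^ (m + 1)) := by
      refine isLocalHom_comp_alg _ _ (hgl n) ?_
      exact isLocalHom_of_surj _ (Ideal.Quotient.factor_surjective
        (Ideal.pow_le_pow_right (Nat.succ_le_succ h)))
    refine hom_unique_artin c (htest m) _ _ hl ?_
    rw [hg m]
    ext σ i j
    have h3 : g n (rU c σ i j) = Ideal.Quotient.mk _ (r σ i j) :=
      congrFun (congrFun (congrArg (fun F => F σ) (hg n)) i) j
    rw [mapM_apply, mapM_apply]
    have hle : maximalIdeal A ^ (n + 1) ≤ maximalIdeal A ^ (m + 1) :=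
      Ideal.pow_le_pow_right (Nat.succ_le_succ h)
    change Ideal.Quotient.factor hle (g n (rU c σ i j)) = Ideal.Quotient.mk _ (r σ i j)
    rw [h3, Ideal.Quotient.factor_mk]
  let F : (n : ℕ) → RU c →ₐ[𝒪] A ⧸ maximalIdeal A ^ n := fun n =>
    (Ideal.Quotient.factorₐ 𝒪 (Ideal.pow_le_pow_right (I := maximalIdeal A)
      (Nat.le_succ n))).comp (g n)
  have hF : ∀ {m n : ℕ} (h : m ≤ n),
      (Ideal.Quotient.factorₐ 𝒪 (Ideal.pow_le_pow_right (I := maximalIdeal A) h)).comp (F n) =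
        F m := by
    intro m n h
    have h1 := hcompat h
    ext x
    have hle : maximalIdeal A ^ (n + 1) ≤ maximalIdeal A ^ (m + 1) :=
      Ideal.pow_le_pow_right (Nat.succ_le_succ h)
    have hle1 : maximalIdeal A ^ (n + 1) ≤ maximalIdeal A ^ n :=
      Ideal.pow_le_pow_right (Nat.le_succ n)
    have hle2 : maximalIdeal A ^ (m + 1) ≤ maximalIdeal A ^ m :=
      Ideal.pow_le_pow_right (Nat.le_succ m)
    have hle3 : maximalIdeal A ^ n ≤ maximalIdeal A ^ m := Ideal.pow_le_pow_right h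
    have h2 : Ideal.Quotient.factor hle (g n x) = g m x := congrArg (fun F => F x) h1
    change Ideal.Quotient.factor hle3 (Ideal.Quotient.factor hle1 (g n x)) =
      Ideal.Quotient.factor hle2 (g m x)
    rw [← h2]
    obtain ⟨y, hy⟩ := Ideal.Quotient.mk_surjective (g n x)
    rw [← hy]
    rfl
  let φ : RU c →ₐ[𝒪] A := IsAdicComplete.liftAlgHom (maximalIdeal A) F hF
  have hφ : ∀ n x, Ideal.Quotient.mk (maximalIdeal A ^ n) (φ x) = F n x := fun n x =>
    IsAdicComplete.mk_liftAlgHom _ F hF n x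
  have hφ1 : ∀ n x, Ideal.Quotient.mk (maximalIdeal A ^ (n + 1)) (φ x) = g n x := by
    intro n x
    rw [hφ]
    have hle : maximalIdeal A ^ (n + 1 + 1) ≤ maximalIdeal A ^ (n + 1) :=
      Ideal.pow_le_pow_right (Nat.le_succ (n + 1))
    have h2 : Ideal.Quotient.factor hle (g (n + 1) x) = g n x :=
      congrArg (fun F => F x) (hcompat (Nat.le_succ n))
    rw [← h2]
    rfl
  refine ⟨φ, ⟨fun x hx => ?_⟩, ?_⟩
  · refine (hgl 0).map_nonunit x ?_
    have h1 : IsUnit (Ideal.Quotient.mk (maximalIdeal A ^ (0 + 1)) (φ x)) := hx.map _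
    rwa [hφ1] at h1
  · ext σ i j
    refine eq_of_forall_sub_mem (maximalIdeal A) fun n => ?_
    refine Ideal.pow_le_pow_right (Nat.le_succ n) ?_
    rw [← Ideal.Quotient.eq, mapM_apply]
    change Ideal.Quotient.mk (maximalIdeal A ^ (n + 1)) (φ (rU c σ i j)) = _
    rw [hφ1]
    exact congrFun (congrFun (congrArg (fun F => F σ) (hg n)) i) j

/-- uniqueness for complete noetherian algebras -/
theorem hom_unique (c : Ctx 𝒟 D ϖ S) {A : Type} [CommRing A] [IsLocalRing A] [IsNoetherianRing A]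
    [IsAdicComplete (maximalIdeal A) A] [Algebra 𝒪 A] (hA : PreTest 𝒪 A) (φ ψ : RU c →ₐ[𝒪] A)
    (hφ : IsLocalHom (φ : RU c →+* A))
    (h : mapM (φ : RU c →+* A) (rU c) = mapM (ψ : RU c →+* A) (rU c)) : φ = ψ := by
  have hk := c.hk
  have hnt : ∀ n : ℕ, maximalIdeal A ^ (n + 1) ≠ ⊤ := fun n h =>
    (IsLocalRing.maximalIdeal.isMaximal A).ne_top
      (top_le_iff.mp (h ▸ Ideal.pow_le_self (Nat.succ_ne_zero n)))
  have hloc : ∀ n : ℕ, IsLocalRing (A ⧸ maximalIdeal A ^ (n + 1)) := fun n =>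
    isLocalRing_quotient _ (hnt n)
  have htest : ∀ n : ℕ, IsArtinianTestAlgebra 𝒪 (A ⧸ maximalIdeal A ^ (n + 1)) := fun n =>
    test_quotient_pow hA (n + 1)
  ext x
  refine eq_of_forall_sub_mem (maximalIdeal A) fun n => ?_
  refine Ideal.pow_le_pow_right (Nat.le_succ n) ?_
  rw [← Ideal.Quotient.eq]
  have hl : IsLocalHom (((Ideal.Quotient.mkₐ 𝒪 (maximalIdeal A ^ (n + 1))).comp φ :
      RU c →ₐ[𝒪] A ⧸ maximalIdeal A ^ (n + 1)) : RU c →+* A ⧸ maximalIdeal A ^ (n + 1)) := by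
    exact isLocalHom_comp_alg _ _ hφ (isLocalHom_of_surj _ (Ideal.Quotient.mkₐ_surjective _ _))
  have h1 := hom_unique_artin c (htest n)
    ((Ideal.Quotient.mkₐ 𝒪 (maximalIdeal A ^ (n + 1))).comp φ)
    ((Ideal.Quotient.mkₐ 𝒪 (maximalIdeal A ^ (n + 1))).comp ψ) hl (by
      ext σ i j
      have h2 : φ (rU c σ i j) = ψ (rU c σ i j) :=
        congrFun (congrFun (congrArg (fun F => F σ) h) i) j
      rw [mapM_apply, mapM_apply]
      change Ideal.Quotient.mk _ (φ (rU c σ i j)) = Ideal.Quotient.mk _ (ψ (rU c σ i j))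
      rw [h2])
  exact congrArg (fun F => F x) h1

omit [IsNoetherianRing 𝒪] in
/-- the residual representation as a normalised matrix representation -/
theorem exists_base_nrep {ρbar : ResidualGaloisRep (ResidueField 𝒪)}
    {b : Module.Basis (Fin 2) (ResidueField 𝒪) ρbar.V} (hD : Compat D ρbar b)
    (h𝒟 : IsDeformationCondition 𝒪 𝒟) (hbar : 𝒟 (GaloisRepAdic.ofResidualGaloisRep ρbar)) :
    ∃ r : GQ →* M2 (ResidueField 𝒪), IsNRep D r ∧ HasType 𝒟 r := by
  let r : GQ →* M2 (ResidueField 𝒪) :=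
    (LinearMap.toMatrixAlgEquiv b).toAlgHom.toRingHom.toMonoidHom.comp ρbar.ρ
  have hr : ∀ σ, r σ = LinearMap.toMatrix b b (ρbar.ρ σ) := fun σ => rfl
  have hfl : FinLevel r := by
    obtain ⟨L, hL, h1⟩ := ρbar.factorsThroughFiniteLevel
    refine ⟨L, hL, fun σ hσ i j => ?_⟩
    rw [hr, h1 σ hσ]
    rw [show (1 : Module.End (ResidueField 𝒪) ρbar.V) = LinearMap.id from rfl,
      LinearMap.toMatrix_id]
  have hloc : IsLocalHom (algebraMap 𝒪 (ResidueField 𝒪)) :=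
    (test_residueField (𝒪 := 𝒪)).isLocalHom
  have hred : ∀ σ i j, r σ i j - algebraMap 𝒪 (ResidueField 𝒪) (D.cf σ i j) ∈
      maximalIdeal (ResidueField 𝒪) := by
    intro σ i j
    have : algebraMap 𝒪 (ResidueField 𝒪) (D.cf σ i j) = r σ i j := hD σ i j
    rw [this, sub_self]
    exact Ideal.zero_mem _
  have hbot : maximalIdeal (ResidueField 𝒪) = ⊥ := IsLocalRing.maximalIdeal_eq_bot
  refine ⟨r, ⟨hfl.isCont, hred, ?_, ?_, ?_⟩, hfl.isCont, ?_⟩
  · have := act_x_red hloc hred 0 1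
    rw [hbot, Ideal.mem_bot] at this
    simpa using this
  · have := act_x_red hloc hred 1 0
    rw [hbot, Ideal.mem_bot] at this
    simpa using this
  · have := act_f_red hloc hred 0 1
    rw [hbot, Ideal.mem_bot, sub_eq_zero] at this
    simpa using this
  · refine h𝒟.of_isEquiv test_residueField ?_ hbar
    refine ⟨⟨b.equivFun, fun σ x => ?_⟩⟩
    change b.equivFun (ρbar.ρ σ x) = (r σ).mulVec (b.equivFun x)
    rw [hr]
    exact (LinearMap.toMatrix_mulVec_repr b b (ρbar.ρ σ) x).symm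

end Fermat.Agent.H04

end
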