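import Fermat.Agent.DefRing.Tangent
import Fermat.Agent.DefRing.PowSer

set_option autoImplicit false
set_option linter.unusedSectionVars false
set_option linter.unnecessarySimpa false

noncomputable section

namespace Fermat.Agent.H04

open IsLocalRing GaloisRep

section gen

variable {𝒪 : Type} [CommRing 𝒪] [IsLocalRing 𝒪]
  {𝒟 : ∀ ⦃A : Type⦄ [CommRing A] [IsLocalRing A] [Algebra 𝒪 A], GaloisRepAdic A → Prop}
  {D : Dat 𝒪}

/-- the index type for matrix coordinates -/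
abbrev Idx := GQ × Fin 2 × Fin 2

/-- coordinates of a matrix representation -/
def xc {A : Type} [CommRing A] [Algebra 𝒪 A] (D : Dat 𝒪) (r : GQ →* M2 A) (p : Idx) : A :=
  r p.1 p.2.1 p.2.2 - algebraMap 𝒪 A (D.cf p.1 p.2.1 p.2.2)

lemma xc_map {A B : Type} [CommRing A] [Algebra 𝒪 A] [CommRing B] [Algebra 𝒪 B] (φ : A →ₐ[𝒪] B)
    (r : GQ →* M2 A) (p : Idx) : xc D (mapM (φ : A →+* B) r) p = φ (xc D r p) := by
  simp only [xc, mapM_apply, map_sub, AlgHom.commutes, RingHom.coe_coe]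

lemma IsNRep.xc_mem {A : Type} [CommRing A] [IsLocalRing A] [Algebra 𝒪 A] {r : GQ →* M2 A}
    (h : IsNRep D r) (p : Idx) : xc D r p ∈ maximalIdeal A := h.red _ _ _

/-- The generators. -/
def gen {A : Type} [CommRing A] [Algebra 𝒪 A] (D : Dat 𝒪) (ϖ : 𝒪) (S : Finset Idx)
    (r : GQ →* M2 A) : Option S → A
  | none => algebraMap 𝒪 A ϖ
  | some p => xc D r p

lemma gen_map {A B : Type} [CommRing A] [Algebra 𝒪 A] [CommRing B] [Algebra 𝒪 B] (ϖ : 𝒪)
    (S : Finset Idx) (φ : A →ₐ[𝒪] B)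
    (r : GQ →* M2 A) (i : Option S) : gen D ϖ S (mapM (φ : A →+* B) r) i = φ (gen D ϖ S r i) := by
  cases i with
  | none => simp [gen]
  | some p => exact xc_map φ r p

lemma gen_mem {A : Type} [CommRing A] [IsLocalRing A] [Algebra 𝒪 A] {ϖ : 𝒪}
    (hϖ : ϖ ∈ maximalIdeal 𝒪) (hloc : IsLocalHom (algebraMap 𝒪 A)) (S : Finset Idx)
    {r : GQ →* M2 A} (h : IsNRep D r) (i : Option S) : gen D ϖ S r i ∈ maximalIdeal A := by
  cases i with
  | none => exact fun hu => hϖ (hloc.map_nonunit _ hu)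
  | some p => exact h.xc_mem p

/-- the property of a finite set of coordinates to separate tangent vectors -/
def Sep (𝒟 : ∀ ⦃A : Type⦄ [CommRing A] [IsLocalRing A] [Algebra 𝒪 A], GaloisRepAdic A → Prop)
    (D : Dat 𝒪) (S : Finset Idx) : Prop :=
  ∀ r s : GQ →* M2 (DN 𝒪), IsNRep D r → HasType 𝒟 r →
      IsNRep D s → HasType 𝒟 s → (∀ p ∈ S, r p.1 p.2.1 p.2.2 = s p.1 p.2.1 p.2.2) → r = s

/-- For an entry-generated pair, the maximal ideal is generated by the uniformiser and the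
coordinates in `S`. -/
theorem maximalIdeal_eq_span [Finite (ResidueField 𝒪)] {S : Finset Idx} (hS : Sep 𝒟 D S)
    (h𝒟 : IsDeformationCondition 𝒪 𝒟)
    {A : Type} [CommRing A] [IsLocalRing A] [Algebra 𝒪 A] (hA : IsArtinianTestAlgebra 𝒪 A)
    {r : GQ →* M2 A} (hr : IsNRep D r) (tr : HasType 𝒟 r) (hgen : entryAlg (𝒪 := 𝒪) r = ⊤)
    {ϖ : 𝒪} (hϖ : maximalIdeal 𝒪 = Ideal.span {ϖ}) :
    maximalIdeal A = Ideal.span (Set.range (gen D ϖ S r)) := by
  have hart := hA.isArtinian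
  have hϖm : ϖ ∈ maximalIdeal 𝒪 := by rw [hϖ]; exact Ideal.mem_span_singleton_self _
  set K0 := Ideal.span (Set.range (gen D ϖ S r)) with hK0
  have hK0le : K0 ≤ maximalIdeal A := by
    rw [hK0, Ideal.span_le]
    rintro _ ⟨i, rfl⟩
    exact gen_mem hϖm hA.isLocalHom S hr i
  refine le_antisymm ?_ hK0le
  have hKeq : K0 ⊔ maximalIdeal A ^ 2 = maximalIdeal A := by
    by_contra hne
    obtain ⟨f, g, hf, hg, hfK, hgK, hfg⟩ := exists_map_DN hA.preTest (K0 ⊔ maximalIdeal A ^ 2)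
      (by
        refine le_trans ?_ le_sup_left
        rw [hϖ, Ideal.map_span, Set.image_singleton, Ideal.span_le, Set.singleton_subset_iff]
        exact Ideal.subset_span ⟨none, rfl⟩)
      le_sup_right
      (sup_le hK0le (Ideal.pow_le_self two_ne_zero)) hne
    apply hfg
    refine AlgHom.ext_of_adjoin_eq_top hgen ?_
    rintro _ ⟨σ, i, j, rfl⟩
    have key : mapM (f : A →+* DN 𝒪) r = mapM (g : A →+* DN 𝒪) r := by
      refine hS _ _ (hr.map f hf) (tr.map h𝒟 hA test_DN f hf) (hr.map g hg)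
        (tr.map h𝒟 hA test_DN g hg) fun p hp => ?_
      have h1 : xc D r p ∈ K0 ⊔ maximalIdeal A ^ 2 :=
        (le_sup_left : K0 ≤ _) (Ideal.subset_span ⟨some ⟨p, hp⟩, rfl⟩)
      have h2 := hfK _ h1
      have h3 := hgK _ h1
      rw [xc, map_sub, AlgHom.commutes, sub_eq_zero] at h2 h3
      rw [mapM_apply, mapM_apply, RingHom.coe_coe, RingHom.coe_coe, h2, h3]
    exact congrFun (congrFun (congrArg (fun F => F σ) key) i) j
  refine Submodule.le_of_le_smul_of_le_jacobson_bot (I := maximalIdeal A)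
    (IsNoetherian.noetherian _) (IsLocalRing.maximalIdeal_le_jacobson _) ?_
  rw [smul_eq_mul, ← pow_two, hKeq]

/-- surjectivity of maps from power series rings -/
theorem surjective_of_maximalIdeal_eq {ι : Type} [Finite ι] {A : Type} [CommRing A]
    [IsLocalRing A] [Algebra 𝒪 A] (hA : PreTest 𝒪 A) [IsHausdorff (maximalIdeal A) A]
    (f : MvPowerSeries ι 𝒪 →ₐ[𝒪] A)
    (hf : maximalIdeal A = Ideal.span (Set.range fun i => f (MvPowerSeries.X i))) :
    Function.Surjective f := by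
  have hmap : (XI ι 𝒪).map (f : MvPowerSeries ι 𝒪 →+* A) = maximalIdeal A := by
    rw [hf, Ideal.map_span, ← Set.range_comp]
    rfl
  have : IsHausdorff ((XI ι 𝒪).map (f : MvPowerSeries ι 𝒪 →+* A)) A := by rw [hmap]; infer_instance
  refine surjective_of_mk_map_comp_surjective (I := XI ι 𝒪) (f : MvPowerSeries ι 𝒪 →+* A) ?_
  intro y
  obtain ⟨a, rfl⟩ := Ideal.Quotient.mk_surjective y
  obtain ⟨c, hc⟩ := hA.approx a
  refine ⟨algebraMap 𝒪 _ c, ?_⟩
  rw [RingHom.comp_apply, RingHom.coe_coe, AlgHom.commutes, eq_comm, Ideal.Quotient.eq, hmap]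
  exact hc

/-- The key lemma. -/
theorem key_lemma [Finite (ResidueField 𝒪)] {S : Finset Idx} (hS : Sep 𝒟 D S)
    (h𝒟 : IsDeformationCondition 𝒪 𝒟)
    {A : Type} [CommRing A] [IsLocalRing A] [Algebra 𝒪 A] (hA : IsArtinianTestAlgebra 𝒪 A)
    {r : GQ →* M2 A} (hr : IsNRep D r) (tr : HasType 𝒟 r)
    {ϖ : 𝒪} (hϖ : maximalIdeal 𝒪 = Ideal.span {ϖ}) :
    ∃ (C : Subalgebra 𝒪 A) (_ : IsLocalRing C) (f : MvPowerSeries (Option S) 𝒪 →ₐ[𝒪] C)
      (s : GQ →* M2 C),
      Function.Surjective f ∧ (∀ i, f (MvPowerSeries.X i) = gen D ϖ S s i) ∧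
      mapM (C.val : C →+* A) s = r ∧ IsNRep D s ∧ HasType 𝒟 s ∧ IsArtinianTestAlgebra 𝒪 C := by
  have fA := finite_of_test hA
  have aA := hA.isArtinian
  have hϖm : ϖ ∈ maximalIdeal 𝒪 := by rw [hϖ]; exact Ideal.mem_span_singleton_self _
  let C : Subalgebra 𝒪 A := entryAlg r
  have fC : Finite C := Subtype.finite
  have locC : IsLocalRing C := isLocalRing_subalgebra C
  have tC : IsArtinianTestAlgebra 𝒪 C := test_subalgebra hA C
  let s : GQ →* M2 C := restrictM C r (mem_entryAlg r)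
  have hs : mapM (C.val : C →+* A) s = r := mapM_restrictM C r _
  have hsn : IsNRep D s := IsNRep.of_injective C.val Subtype.val_injective (by rw [hs]; exact hr)
  have hst : HasType 𝒟 s := HasType.of_injective h𝒟 tC hA C.val (isLocalHom_subalgebra C)
    Subtype.val_injective hsn.cont (by rw [hs]; exact tr)
  have hgen : entryAlg (𝒪 := 𝒪) s = ⊤ := by
    refine Eq.trans ?_ (Algebra.adjoin_adjoin_coe_preimage (R := 𝒪)
      (s := {a : A | ∃ σ i j, r σ i j = a}))
    unfold entryAlg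
    congr 1
    ext x
    simp only [Set.mem_ofPred_eq]
    constructor
    · rintro ⟨σ, i, j, rfl⟩
      exact ⟨σ, i, j, rfl⟩
    · rintro ⟨σ, i, j, h⟩
      exact ⟨σ, i, j, Subtype.ext h⟩
  have hmax := maximalIdeal_eq_span hS h𝒟 tC hsn hst hgen hϖ
  obtain ⟨n, hn⟩ := (isArtinianRing_iff_isNilpotent_maximalIdeal C).mp inferInstance
  obtain ⟨f, hf⟩ := exists_algHom (𝒪 := 𝒪) (gen D ϖ S s) (maximalIdeal C) hn
    (fun i => gen_mem hϖm tC.isLocalHom S hsn i)
  refine ⟨C, locC, f, s, ?_, hf, hs, hsn, hst, tC⟩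
  refine surjective_of_maximalIdeal_eq tC.preTest f ?_
  rw [hmax]
  simp only [hf]

end gen

end Fermat.Agent.H04

end
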