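import Fermat.Agent.DefRing.NRep

set_option autoImplicit false
set_option linter.unusedSectionVars false
set_option linter.unnecessarySimpa false

noncomputable section

namespace Fermat.Agent.H04

open IsLocalRing TensorProduct

section conj

variable {A : Type} [CommRing A]

/-- conjugation of a matrix representation -/
def conjM (u : (M2 A)ˣ) (r : GQ →* M2 A) : GQ →* M2 A where
  toFun σ := (u⁻¹ : (M2 A)ˣ) * r σ * u
  map_one' := by simp
  map_mul' σ τ := by simp [mul_assoc]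

lemma conjM_apply (u : (M2 A)ˣ) (r : GQ →* M2 A) (σ : GQ) :
    conjM u r σ = (u⁻¹ : (M2 A)ˣ) * r σ * u := rfl

lemma mul_conjM (u : (M2 A)ˣ) (r : GQ →* M2 A) (σ : GQ) :
    (u : M2 A) * conjM u r σ = r σ * u := by
  rw [conjM_apply, mul_assoc, Units.mul_inv_cancel_left]

lemma act_conjM {𝒪 : Type} [CommRing 𝒪] [IsLocalRing 𝒪] [Algebra 𝒪 A] (u : (M2 A)ˣ)
    (r : GQ →* M2 A) (x : GQ →₀ 𝒪) :
    act (conjM u r) x = (u⁻¹ : (M2 A)ˣ) * act r x * u := by
  have := act_conj (mul_conjM u r) x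
  rw [mul_assoc, ← this, Units.inv_mul_cancel_left]

variable [IsLocalRing A]

lemma IsCont.conjM {r : GQ →* M2 A} (hr : IsCont r) (u : (M2 A)ˣ) : IsCont (conjM u r) := by
  intro n
  obtain ⟨L, hL, h⟩ := hr n
  refine ⟨L, hL, fun σ hσ i j => ?_⟩
  have h1 : Fermat.Agent.H04.conjM u r σ - 1 =
      ((u⁻¹ : (M2 A)ˣ) : M2 A) * (r σ - 1) * (u : M2 A) := by
    rw [mul_sub, sub_mul, mul_one, Units.inv_mul, conjM_apply]
  have h2 : Fermat.Agent.H04.conjM u r σ i j - (1 : M2 A) i j =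
      (((u⁻¹ : (M2 A)ˣ) : M2 A) * (r σ - 1) * (u : M2 A)) i j := by
    rw [← h1, Matrix.sub_apply]
  rw [h2, Matrix.mul_apply]
  refine Ideal.sum_mem _ fun k _ => Ideal.mul_mem_right _ _ ?_
  rw [Matrix.mul_apply]
  exact Ideal.sum_mem _ fun l _ => Ideal.mul_mem_left _ _ (h σ hσ l k)

lemma conjM_red {𝒪 : Type} [CommRing 𝒪] [IsLocalRing 𝒪] [Algebra 𝒪 A] {cf : GQ → Fin 2 → Fin 2 → 𝒪}
    {r : GQ →* M2 A} (red : ∀ σ i j, r σ i j - algebraMap 𝒪 A (cf σ i j) ∈ maximalIdeal A)
    (u : (M2 A)ˣ) (hu : (residue A).mapMatrix (u : M2 A) = 1) (σ : GQ) (i j : Fin 2) :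
    conjM u r σ i j - algebraMap 𝒪 A (cf σ i j) ∈ maximalIdeal A := by
  have hu' : (residue A).mapMatrix ((u⁻¹ : (M2 A)ˣ) : M2 A) = 1 := by
    have : (residue A).mapMatrix (((u⁻¹ : (M2 A)ˣ) : M2 A) * (u : M2 A)) = 1 := by
      rw [Units.inv_mul, map_one]
    rwa [map_mul, hu, mul_one] at this
  have h1 : (residue A).mapMatrix (conjM u r σ) = (residue A).mapMatrix (r σ) := by
    rw [conjM_apply, map_mul, map_mul, hu, hu', one_mul, mul_one]
  have h2 : residue A (conjM u r σ i j) = residue A (r σ i j) := congrFun (congrFun h1 i) j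
  have h3 := red σ i j
  rw [← residue_eq_zero_iff, map_sub, sub_eq_zero] at h3 ⊢
  rw [h2, h3]

end conj

section normalize

variable {𝒪 : Type} [CommRing 𝒪] [IsLocalRing 𝒪] {A : Type} [CommRing A] [IsLocalRing A]
  [Algebra 𝒪 A] {D : Dat 𝒪}

open Polynomial in
lemma exists_root [IsAdicComplete (maximalIdeal A) A] (t d : A) (h : 1 - t + d ∈ maximalIdeal A)
    (ht : t - 1 ∈ maximalIdeal A) :
    ∃ l : A, l ^ 2 - t * l + d = 0 ∧ l - 1 ∈ maximalIdeal A := by
  have hmon : (X ^ 2 - C t * X + C d : A[X]).Monic := by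
    have : (X ^ 2 - C t * X + C d : A[X]) = X ^ 2 + (- C t * X + C d) := by ring
    rw [this]
    refine Polynomial.monic_X_pow_add ?_
    have h1 : (- C t * X + C d : A[X]) = C (-t) * X + C d := by simp
    rw [h1]
    exact lt_of_le_of_lt Polynomial.degree_linear_le (by norm_num)
  obtain ⟨l, hl, hl'⟩ := HenselianRing.is_henselian (R := A) (I := maximalIdeal A)
    (X ^ 2 - C t * X + C d) hmon 1 (by
      simp only [eval_add, eval_sub, eval_pow, eval_X, eval_mul, eval_C, one_pow, mul_one]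
      exact h) (by
      simp only [derivative_add, derivative_sub, derivative_X_pow, derivative_mul, derivative_C,
        derivative_X, eval_add, eval_sub, eval_mul, eval_C, eval_X, eval_pow]
      refine IsUnit.map _ ?_
      apply isUnit_of_sub_one_mem
      have := Ideal.neg_mem_iff (maximalIdeal A) |>.mpr ht
      convert this using 1
      norm_num
      ring)
  refine ⟨l, ?_, hl'⟩
  have : (X ^ 2 - C t * X + C d : A[X]).eval l = 0 := hl
  simpa using this

lemma residue_eq_of_sub_mem {a b : A} (h : a - b ∈ maximalIdeal A) : residue A a = residue A b := by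
  rwa [← residue_eq_zero_iff, map_sub, sub_eq_zero] at h

lemma exists_conj_diag [IsAdicComplete (maximalIdeal A) A] (X : M2 A)
    (h00 : X 0 0 - 1 ∈ maximalIdeal A) (h01 : X 0 1 ∈ maximalIdeal A)
    (h10 : X 1 0 ∈ maximalIdeal A) (h11 : X 1 1 ∈ maximalIdeal A) :
    ∃ u : (M2 A)ˣ, (residue A).mapMatrix (u : M2 A) = 1 ∧
      (((u⁻¹ : (M2 A)ˣ) : M2 A) * X * u) 0 1 = 0 ∧ (((u⁻¹ : (M2 A)ˣ) : M2 A) * X * u) 1 0 = 0 := by
  have r00 := residue_eq_of_sub_mem h00
  rw [map_one] at r00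
  have r01 := (residue_eq_zero_iff _).mpr h01
  have r10 := (residue_eq_zero_iff _).mpr h10
  have r11 := (residue_eq_zero_iff _).mpr h11
  obtain ⟨l, hl, hl1⟩ := exists_root (X 0 0 + X 1 1) (X 0 0 * X 1 1 - X 0 1 * X 1 0)
    (by
      rw [← residue_eq_zero_iff]
      simp [r00, r01, r11])
    (by
      rw [← residue_eq_zero_iff]
      simp [r00, r11])
  have rl := residue_eq_of_sub_mem hl1
  rw [map_one] at rl
  set P : M2 A := !![l - X 1 1, - X 0 1; X 1 0, l - X 1 1] with hP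
  have hPres : (residue A).mapMatrix P = 1 := by
    ext i j
    fin_cases i <;> fin_cases j <;> simp [hP, rl, r11, r01, r10]
  have hPdet : IsUnit P := by
    rw [Matrix.isUnit_iff_isUnit_det]
    apply isUnit_of_sub_one_mem
    rw [← residue_eq_zero_iff, Matrix.det_fin_two]
    simp [hP, rl, r11, r01, r10]
  obtain ⟨u, hu⟩ := hPdet
  refine ⟨u, by rw [hu, hPres], ?_⟩
  have hXP : X * (u : M2 A) = u * !![l, 0; 0, X 0 0 + X 1 1 - l] := by
    rw [hu]
    ext i j
    fin_cases i <;> fin_cases j <;>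
      simp only [hP, Matrix.mul_apply, Fin.sum_univ_two, Matrix.of_apply, Matrix.cons_val', Fin.zero_eta,
        Matrix.cons_val_zero, Matrix.cons_val_one, Fin.mk_one, Matrix.cons_val_fin_one]
    · linear_combination (-1 : A) * hl
    · ring
    · ring
    · linear_combination hl
  rw [mul_assoc, hXP, Units.inv_mul_cancel_left]
  simp

/-- Existence of the normalised form of a matrix representation. -/
theorem exists_isNRep [IsAdicComplete (maximalIdeal A) A] (hloc : IsLocalHom (algebraMap 𝒪 A))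
    (r : GQ →* M2 A) (hr : IsCont r)
    (red : ∀ σ i j, r σ i j - algebraMap 𝒪 A (D.cf σ i j) ∈ maximalIdeal A) :
    ∃ (r' : GQ →* M2 A) (h : IsNRep D r'), (ofMat r' h.cont).IsEquiv (ofMat r hr) := by
  have hx := act_x_red hloc red
  obtain ⟨u, hu, h1, h2⟩ := exists_conj_diag (act r D.x) (by simpa using hx 0 0)
    (by simpa using hx 0 1) (by simpa using hx 1 0) (by simpa using hx 1 1)
  have red1 := conjM_red red u hu
  set r1 := conjM u r with hr1
  have hc1 : IsCont r1 := hr.conjM u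
  rw [← act_conjM, ← hr1] at h1 h2
  have hf := act_f_red hloc red1 0 1
  simp only [and_self, if_true] at hf
  have hfu : IsUnit (act r1 D.f 0 1) := isUnit_of_sub_one_mem hf
  have hfr := residue_eq_of_sub_mem hf
  rw [map_one] at hfr
  obtain ⟨c, hc⟩ := hfu
  rw [← hc] at hfr
  have hcinv : residue A ((c⁻¹ : Aˣ) : A) = 1 := by
    have : residue A ((c⁻¹ : Aˣ) * (c : A)) = 1 := by rw [Units.inv_mul, map_one]
    rwa [map_mul, hfr, mul_one] at this
  let w : (M2 A)ˣ := ⟨!![(c : A), 0; 0, 1], !![((c⁻¹ : Aˣ) : A), 0; 0, 1],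
    by ext i j; fin_cases i <;> fin_cases j <;> simp [Matrix.mul_apply],
    by ext i j; fin_cases i <;> fin_cases j <;> simp [Matrix.mul_apply]⟩
  have hw : (w : M2 A) = !![(c : A), 0; 0, 1] := rfl
  have hwi : ((w⁻¹ : (M2 A)ˣ) : M2 A) = !![((c⁻¹ : Aˣ) : A), 0; 0, 1] := rfl
  have hwres : (residue A).mapMatrix (w : M2 A) = 1 := by
    rw [hw]
    ext i j
    fin_cases i <;> fin_cases j <;> simp [hfr]
  refine ⟨conjM w r1, ⟨hc1.conjM w, conjM_red red1 w hwres, ?_, ?_, ?_⟩, ?_⟩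
  · rw [act_conjM, hw, hwi, Matrix.mul_apply, Fin.sum_univ_two, Matrix.mul_apply,
      Matrix.mul_apply, Fin.sum_univ_two, Fin.sum_univ_two]
    simp [h1]
  · rw [act_conjM, hw, hwi, Matrix.mul_apply, Fin.sum_univ_two, Matrix.mul_apply,
      Matrix.mul_apply, Fin.sum_univ_two, Fin.sum_univ_two]
    simp [h2]
  · rw [act_conjM, hw, hwi, Matrix.mul_apply, Fin.sum_univ_two, Matrix.mul_apply,
      Matrix.mul_apply, Fin.sum_univ_two, Fin.sum_univ_two, ← hc]
    simp
  · refine isEquiv_of_matrix _ _ ((u * w : (M2 A)ˣ) : M2 A) (Units.isUnit _) fun σ => ?_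
    rw [Units.val_mul, mul_assoc, mul_conjM, ← mul_assoc, hr1, mul_conjM, mul_assoc]

end normalize

end Fermat.Agent.H04

end
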