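import Fermat.Agent.DefRing.TestAlg

set_option autoImplicit false
set_option linter.unusedSectionVars false
set_option linter.unnecessarySimpa false

noncomputable section

namespace Fermat.Agent.H04

open IsLocalRing GaloisRep

/-- factoring through a finite level -/
def FinLevel {A : Type} [CommRing A] (r : GQ →* M2 A) : Prop :=
  ∃ L : IntermediateField ℚ (AlgebraicClosure ℚ), FiniteDimensional ℚ L ∧
    ∀ σ : GQ, (∀ x ∈ L, σ x = x) → ∀ i j, r σ i j = (1 : M2 A) i j

lemma FinLevel.isCont {A : Type} [CommRing A] [IsLocalRing A] {r : GQ →* M2 A}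
    (h : FinLevel r) : IsCont r := by
  obtain ⟨L, hL, h1⟩ := h
  exact fun n => ⟨L, hL, fun σ hσ i j => by rw [h1 σ hσ, sub_self]; exact Ideal.zero_mem _⟩

lemma IsCont.finLevel {A : Type} [CommRing A] [IsLocalRing A] [IsArtinianRing A] {r : GQ →* M2 A}
    (h : IsCont r) : FinLevel r := by
  obtain ⟨n, hn⟩ := (isArtinianRing_iff_isNilpotent_maximalIdeal A).mp inferInstance
  obtain ⟨L, hL, h1⟩ := h n
  refine ⟨L, hL, fun σ hσ i j => ?_⟩
  have := h1 σ hσ i j
  rw [hn] at this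
  exact sub_eq_zero.mp this

lemma FinLevel.joint {P A B : Type} [CommRing P] [CommRing A] [CommRing B] (f : P →+* A)
    (g : P →+* B) (hinj : ∀ x y, f x = f y → g x = g y → x = y) {r : GQ →* M2 P}
    (hA : FinLevel (mapM f r)) (hB : FinLevel (mapM g r)) : FinLevel r := by
  obtain ⟨L, hL, h1⟩ := hA
  obtain ⟨L', hL', h1'⟩ := hB
  refine ⟨L ⊔ L', inferInstance, fun σ hσ i j => hinj _ _ ?_ ?_⟩
  · have := h1 σ (fun x hx => hσ x ((le_sup_left : L ≤ L ⊔ L') hx)) i j
    rw [mapM_apply] at this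
    rw [this]
    by_cases hij : i = j
    · subst hij; simp
    · simp [hij]
  · have := h1' σ (fun x hx => hσ x ((le_sup_right : L' ≤ L ⊔ L') hx)) i j
    rw [mapM_apply] at this
    rw [this]
    by_cases hij : i = j
    · subst hij; simp
    · simp [hij]

variable {𝒪 : Type} [CommRing 𝒪] [IsLocalRing 𝒪]

variable (𝒟 : ∀ ⦃A : Type⦄ [CommRing A] [IsLocalRing A] [Algebra 𝒪 A], GaloisRepAdic A → Prop)

/-- the matrix representation `r` is of type `𝒟` -/
def HasType {A : Type} [CommRing A] [IsLocalRing A] [Algebra 𝒪 A] (r : GQ →* M2 A) : Prop :=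
  ∃ h : IsCont r, 𝒟 (ofMat r h)

variable {𝒟} {D : Dat 𝒪}

lemma HasType.map (h𝒟 : IsDeformationCondition 𝒪 𝒟) {A B : Type} [CommRing A] [IsLocalRing A]
    [Algebra 𝒪 A] [CommRing B] [IsLocalRing B] [Algebra 𝒪 B] (hA : IsArtinianTestAlgebra 𝒪 A)
    (hB : IsArtinianTestAlgebra 𝒪 B) (φ : A →ₐ[𝒪] B) (hφ : IsLocalHom (φ : A →+* B))
    {r : GQ →* M2 A} (h : HasType 𝒟 r) : HasType 𝒟 (mapM (φ : A →+* B) r) := by
  obtain ⟨hc, h1⟩ := h
  exact ⟨hc.map _ hφ, h𝒟.of_isEquiv hB (ofMat_baseChange r hc _ hφ)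
    (h𝒟.baseChangeAlong hA hB φ hφ h1)⟩

lemma HasType.of_injective (h𝒟 : IsDeformationCondition 𝒪 𝒟) {A B : Type} [CommRing A]
    [IsLocalRing A] [Algebra 𝒪 A] [CommRing B] [IsLocalRing B] [Algebra 𝒪 B]
    (hA : IsArtinianTestAlgebra 𝒪 A)
    (hB : IsArtinianTestAlgebra 𝒪 B) (φ : A →ₐ[𝒪] B) (hφ : IsLocalHom (φ : A →+* B))
    (hinj : Function.Injective φ)
    {r : GQ →* M2 A} (hc : IsCont r) (h : HasType 𝒟 (mapM (φ : A →+* B) r)) : HasType 𝒟 r := by
  obtain ⟨hc', h1⟩ := h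
  refine ⟨hc, h𝒟.of_baseChangeAlong_injective hA hB φ hφ hinj ?_⟩
  obtain ⟨e⟩ := ofMat_baseChange r hc _ hφ
  exact h𝒟.of_isEquiv hB ⟨e.symm⟩ h1

/-- pull back along jointly injective maps -/
lemma IsNRep.joint {P A B : Type} [CommRing P] [IsLocalRing P] [Algebra 𝒪 P] [CommRing A]
    [IsLocalRing A] [Algebra 𝒪 A] [CommRing B] [IsLocalRing B] [Algebra 𝒪 B]
    [IsArtinianRing A] [IsArtinianRing B]
    (f : P →ₐ[𝒪] A) (g : P →ₐ[𝒪] B) (hinj : ∀ x y, f x = f y → g x = g y → x = y)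
    {r : GQ →* M2 P} (hA : IsNRep D (mapM (f : P →+* A) r))
    (hB : IsNRep D (mapM (g : P →+* B) r)) : IsNRep D r where
  cont := (FinLevel.joint (f : P →+* A) (g : P →+* B) hinj hA.cont.finLevel
    hB.cont.finLevel).isCont
  red σ i j := fun hu => hA.red σ i j (by
    have := hu.map f
    rw [map_sub, AlgHom.commutes] at this
    exact this)
  n01 := hinj _ _ (by rw [← act_mapM, hA.n01, map_zero]) (by rw [← act_mapM, hB.n01, map_zero])
  n10 := hinj _ _ (by rw [← act_mapM, hA.n10, map_zero]) (by rw [← act_mapM, hB.n10, map_zero])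
  nf := hinj _ _ (by rw [← act_mapM, hA.nf, map_one]) (by rw [← act_mapM, hB.nf, map_one])

/-- pull back along an injective map -/
lemma IsNRep.of_injective {P A : Type} [CommRing P] [IsLocalRing P] [Algebra 𝒪 P] [CommRing A]
    [IsLocalRing A] [Algebra 𝒪 A] [IsArtinianRing A]
    (f : P →ₐ[𝒪] A) (hinj : Function.Injective f)
    {r : GQ →* M2 P} (hA : IsNRep D (mapM (f : P →+* A) r)) : IsNRep D r :=
  IsNRep.joint f f (fun _ _ h _ => hinj h) hA hA

/-- restrict a matrix representation to a subalgebra containing its entries -/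
def restrictM {A : Type} [CommRing A] [Algebra 𝒪 A] (C : Subalgebra 𝒪 A) (r : GQ →* M2 A)
    (h : ∀ σ i j, r σ i j ∈ C) : GQ →* M2 C where
  toFun σ := Matrix.of fun i j => ⟨r σ i j, h σ i j⟩
  map_one' := by
    ext i j
    simp only [map_one, Matrix.of_apply]
    by_cases hij : i = j
    · subst hij; simp
    · simp [hij]
  map_mul' σ τ := by
    ext i j
    simp only [map_mul, Matrix.of_apply, Matrix.mul_apply, Fin.sum_univ_two]
    rfl

lemma mapM_restrictM {A : Type} [CommRing A] [Algebra 𝒪 A] (C : Subalgebra 𝒪 A) (r : GQ →* M2 A)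
    (h : ∀ σ i j, r σ i j ∈ C) : mapM (C.val : C →+* A) (restrictM C r h) = r := by
  ext σ i j
  rfl

/-- product of two matrix representations -/
def prodM {A B : Type} [CommRing A] [CommRing B] (r : GQ →* M2 A) (s : GQ →* M2 B) :
    GQ →* M2 (A × B) where
  toFun σ := Matrix.of fun i j => (r σ i j, s σ i j)
  map_one' := by
    ext i j
    · simp only [map_one, Matrix.of_apply]
      by_cases hij : i = j
      · subst hij; simp
      · simp [hij]
    · simp only [map_one, Matrix.of_apply]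
      by_cases hij : i = j
      · subst hij; simp
      · simp [hij]
  map_mul' σ τ := by
    ext i j <;>
    simp only [map_mul, Matrix.of_apply, Matrix.mul_apply, Fin.sum_univ_two] <;> rfl

/-- The subalgebra generated by the entries. -/
def entryAlg {A : Type} [CommRing A] [Algebra 𝒪 A] (r : GQ →* M2 A) : Subalgebra 𝒪 A :=
  Algebra.adjoin 𝒪 {a | ∃ σ i j, r σ i j = a}

lemma mem_entryAlg {A : Type} [CommRing A] [Algebra 𝒪 A] (r : GQ →* M2 A) (σ : GQ) (i j : Fin 2) :
    r σ i j ∈ entryAlg (𝒪 := 𝒪) r := Algebra.subset_adjoin ⟨σ, i, j, rfl⟩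

/-- fibre product of two test algebras with representations -/
theorem exists_fibreProduct [Finite (ResidueField 𝒪)] (h𝒟 : IsDeformationCondition 𝒪 𝒟)
    {A B : Type} [CommRing A] [IsLocalRing A] [Algebra 𝒪 A] [CommRing B] [IsLocalRing B]
    [Algebra 𝒪 B] (hA : IsArtinianTestAlgebra 𝒪 A) (hB : IsArtinianTestAlgebra 𝒪 B)
    {r : GQ →* M2 A} {s : GQ →* M2 B} (hr : IsNRep D r) (hs : IsNRep D s)
    (tr : HasType 𝒟 r) (ts : HasType 𝒟 s) :
    ∃ (P : Type) (_ : CommRing P) (_ : IsLocalRing P) (_ : Algebra 𝒪 P)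
      (_ : IsArtinianTestAlgebra 𝒪 P) (pA : P →ₐ[𝒪] A) (pB : P →ₐ[𝒪] B) (t : GQ →* M2 P),
      IsLocalHom (pA : P →+* A) ∧ IsLocalHom (pB : P →+* B) ∧
      (∀ x y, pA x = pA y → pB x = pB y → x = y) ∧
      IsNRep D t ∧ HasType 𝒟 t ∧ mapM (pA : P →+* A) t = r ∧ mapM (pB : P →+* B) t = s := by
  obtain ⟨f, hf, hf0⟩ := exists_aug hA.preTest
  obtain ⟨g, hg, hg0⟩ := exists_aug hB.preTest
  have fA : Finite A := finite_of_test hA
  have fB : Finite B := finite_of_test hB
  have aA := hA.isArtinian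
  have aB := hB.isArtinian
  let P : Subalgebra 𝒪 (A × B) :=
    AlgHom.equalizer (f.comp (AlgHom.fst 𝒪 A B)) (g.comp (AlgHom.snd 𝒪 A B))
  have hmemP : ∀ x : A × B, x ∈ P ↔ f x.1 = g x.2 := fun x => Iff.rfl
  have fP : Finite P := Subtype.finite
  let pA : P →ₐ[𝒪] A := (AlgHom.fst 𝒪 A B).comp P.val
  let pB : P →ₐ[𝒪] B := (AlgHom.snd 𝒪 A B).comp P.val
  have hcomm : f.comp pA = g.comp pB := by
    ext x
    exact (hmemP x.1).mp x.2
  have key : ∀ x : P, IsUnit (f (pA x)) → IsUnit x := by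
    intro x hx
    have hP := isLocalHom_subalgebra P
    refine hP.map_nonunit x ?_
    rw [RingHom.coe_coe, Prod.isUnit_iff]
    refine ⟨hf.map_nonunit _ hx, hg.map_nonunit _ ?_⟩
    have : f (pA x) = g (pB x) := congrArg (fun F => F x) hcomm
    rw [this] at hx
    exact hx
  have lA : IsLocalHom (pA : P →+* A) := ⟨fun x hx => key x (hx.map f)⟩
  have lB : IsLocalHom (pB : P →+* B) := ⟨fun x hx => key x (by
    have : f (pA x) = g (pB x) := congrArg (fun F => F x) hcomm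
    rw [this]
    exact hx.map g)⟩
  have locP : IsLocalRing P := RingHom.domain_isLocalRing (pA : P →+* A)
  have hPtest : IsArtinianTestAlgebra 𝒪 P :=
    test_iff.mpr ⟨preTest_of_localHom pA lA hA.preTest, inferInstance⟩
  have hmem : ∀ σ i j, (prodM r s) σ i j ∈ P := by
    intro σ i j
    rw [hmemP]
    change f (r σ i j) = g (s σ i j)
    have h1 := (hf0 _).mpr (hr.red σ i j)
    have h2 := (hg0 _).mpr (hs.red σ i j)
    rw [map_sub, AlgHom.commutes, sub_eq_zero] at h1 h2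
    rw [h1, h2]
  let t : GQ →* M2 P := restrictM P (prodM r s) hmem
  have htA : mapM (pA : P →+* A) t = r := by ext σ i j; rfl
  have htB : mapM (pB : P →+* B) t = s := by ext σ i j; rfl
  have hinj : ∀ x y, pA x = pA y → pB x = pB y → x = y := by
    intro x y h1 h2
    exact Subtype.ext (Prod.ext h1 h2)
  have ht : IsNRep D t := IsNRep.joint pA pB hinj (by rw [htA]; exact hr) (by rw [htB]; exact hs)
  refine ⟨P, inferInstance, locP, inferInstance, hPtest, pA, pB, t, lA, lB, hinj, ht, ?_,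
    htA, htB⟩
  refine ⟨ht.cont, ?_⟩
  have hk : IsArtinianTestAlgebra 𝒪 (ResidueField 𝒪) := test_residueField
  refine h𝒟.of_fibreProduct hA hB hk hPtest f g pA pB lA lB hcomm (fun x y hxy => ?_)
    (fun a b hab => ⟨⟨(a, b), hab⟩, rfl, rfl⟩) ?_ ?_
  · have h1 := congrArg Prod.fst hxy
    have h2 := congrArg Prod.snd hxy
    exact hinj x y h1 h2
  · obtain ⟨e⟩ := ofMat_baseChange t ht.cont (pA : P →+* A) lA
    obtain ⟨hc, hd⟩ := tr
    refine h𝒟.of_isEquiv hA ⟨e.symm⟩ ?_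
    have : ∀ (r' : GQ →* M2 A) (h' : IsCont r'), r' = r → 𝒟 (ofMat r' h') := by
      rintro r' h' rfl; exact hd
    exact this _ _ htA
  · obtain ⟨e⟩ := ofMat_baseChange t ht.cont (pB : P →+* B) lB
    obtain ⟨hc, hd⟩ := ts
    refine h𝒟.of_isEquiv hB ⟨e.symm⟩ ?_
    have : ∀ (r' : GQ →* M2 B) (h' : IsCont r'), r' = s → 𝒟 (ofMat r' h') := by
      rintro r' h' rfl; exact hd
    exact this _ _ htB

end Fermat.Agent.H04

end
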