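import Fermat.Agent.DefRing.Normalize

set_option autoImplicit false
set_option linter.unusedSectionVars false
set_option linter.unnecessarySimpa false

noncomputable section

namespace Fermat.Agent.H04

open IsLocalRing TensorProduct

section residual

variable {k : Type} [Field k] {K : Type} [Field K]

lemma exists_basis_of_equiv (φ : k →+* K) (ρ : ResidualGaloisRep k) (ρ' : ResidualGaloisRep K)
    (h : ρ'.IsEquiv (ρ.baseChangeAlong φ)) (b : Module.Basis (Fin 2) k ρ.V) :
    ∃ b' : Module.Basis (Fin 2) K ρ'.V, ∀ σ j, ρ'.ρ σ (b' j) =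
      ∑ i, φ (LinearMap.toMatrix b b (ρ.ρ σ) i j) • b' i := by
  obtain ⟨e, he⟩ := h
  let : Algebra k K := φ.toAlgebra
  change ρ'.V ≃ₗ[K] (K ⊗[k] ρ.V) at e
  change ∀ (σ : GQ) (x : ρ'.V), e (ρ'.ρ σ x) = (ρ.ρ σ).baseChange K (e x) at he
  refine ⟨(b.baseChange K).map e.symm, fun σ j => ?_⟩
  apply e.injective
  rw [he, map_sum]
  simp only [Module.Basis.map_apply, LinearEquiv.apply_symm_apply, map_smul,
    Module.Basis.baseChange_apply, LinearMap.baseChange_tmul]
  have h1 : ρ.ρ σ (b j) = ∑ i, LinearMap.toMatrix b b (ρ.ρ σ) i j • b i := by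
    conv_lhs => rw [← b.sum_repr (ρ.ρ σ (b j))]
    simp only [LinearMap.toMatrix_apply]
  rw [h1, TensorProduct.tmul_sum]
  refine Finset.sum_congr rfl fun i _ => ?_
  rw [TensorProduct.tmul_smul]
  rfl

lemma isEquiv_of_basis (φ : k →+* K) (ρ : ResidualGaloisRep k) (ρ' : ResidualGaloisRep K)
    (b : Module.Basis (Fin 2) k ρ.V) (b' : Module.Basis (Fin 2) K ρ'.V)
    (h : ∀ σ j, ρ'.ρ σ (b' j) = ∑ i, φ (LinearMap.toMatrix b b (ρ.ρ σ) i j) • b' i) :
    ρ'.IsEquiv (ρ.baseChangeAlong φ) := by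
  let : Algebra k K := φ.toAlgebra
  let e : ρ'.V ≃ₗ[K] (K ⊗[k] ρ.V) := b'.equiv (b.baseChange K) (Equiv.refl _)
  have he : ∀ (σ : GQ) (x : ρ'.V), e (ρ'.ρ σ x) = (ρ.ρ σ).baseChange K (e x) := by
    intro σ x
    have : (e.toLinearMap ∘ₗ ρ'.ρ σ) = ((ρ.ρ σ).baseChange K) ∘ₗ e.toLinearMap := by
      refine b'.ext fun j => ?_
      rw [LinearMap.comp_apply, LinearMap.comp_apply, h, map_sum]
      have h1 : ρ.ρ σ (b j) = ∑ i, LinearMap.toMatrix b b (ρ.ρ σ) i j • b i := by
        conv_lhs => rw [← b.sum_repr (ρ.ρ σ (b j))]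
        simp only [LinearMap.toMatrix_apply]
      simp only [e, map_smul, LinearEquiv.coe_coe, Module.Basis.equiv_apply, Equiv.refl_apply,
        Module.Basis.baseChange_apply, LinearMap.baseChange_tmul]
      rw [h1, TensorProduct.tmul_sum]
      refine Finset.sum_congr rfl fun i _ => ?_
      rw [TensorProduct.tmul_smul]
      rfl
    exact congrFun (congrArg DFunLike.coe this) x
  exact ⟨⟨e, he⟩⟩

end residual

section

variable {𝒪 : Type} [CommRing 𝒪] [IsLocalRing 𝒪] {A : Type} [CommRing A] [IsLocalRing A]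
  [Algebra 𝒪 A] {D : Dat 𝒪}

/-- `D` lifts the matrix coefficients of `ρbar` in the basis `b`. -/
def Compat (D : Dat 𝒪) (ρbar : ResidualGaloisRep (ResidueField 𝒪))
    (b : Module.Basis (Fin 2) (ResidueField 𝒪) ρbar.V) : Prop :=
  ∀ σ i j, residue 𝒪 (D.cf σ i j) = LinearMap.toMatrix b b (ρbar.ρ σ) i j

theorem exists_mat {ρbar : ResidualGaloisRep (ResidueField 𝒪)}
    {b : Module.Basis (Fin 2) (ResidueField 𝒪) ρbar.V} (hD : Compat D ρbar b)
    (φ : ResidueField 𝒪 →+* ResidueField A)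
    (hφ : ∀ c, φ (residue 𝒪 c) = residue A (algebraMap 𝒪 A c)) (ρ : GaloisRepAdic A)
    (h : ρ.residual.IsEquiv (ρbar.baseChangeAlong φ)) :
    ∃ (r : GQ →* M2 A) (hr : IsCont r),
      (∀ σ i j, r σ i j - algebraMap 𝒪 A (D.cf σ i j) ∈ maximalIdeal A) ∧
      ρ.IsEquiv (ofMat r hr) := by
  obtain ⟨b', hb'⟩ := exists_basis_of_equiv φ ρbar ρ.residual h b
  change Module.Basis (Fin 2) (ResidueField A) (ResidueField A ⊗[A] ρ.V) at b'
  change ∀ (σ : GQ) j, (ρ.ρ σ).baseChange (ResidueField A) (b' j) =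
      ∑ i, φ (LinearMap.toMatrix b b (ρbar.ρ σ) i j) • b' i at hb'
  have hsurj : Function.Surjective (TensorProduct.mk A (ResidueField A) ρ.V 1) :=
    TensorProduct.mk_surjective A ρ.V (ResidueField A) Ideal.Quotient.mk_surjective
  choose v hv using fun j => hsurj (b' j)
  have hvb : (TensorProduct.mk A (ResidueField A) ρ.V 1 ∘ v) = b' := funext hv
  have := Module.finitePresentation_of_projective A ρ.V
  obtain ⟨c, hc⟩ := Module.exists_basis_of_basis_baseChange v
    (by rw [hvb]; exact b'.linearIndependent) (by rw [hvb]; exact b'.span_eq)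
    (Module.Flat.rTensor_preserves_injective_linearMap _ Subtype.val_injective)
  let r : GQ →* M2 A := (LinearMap.toMatrixAlgEquiv c).toAlgHom.toRingHom.toMonoidHom.comp ρ.ρ
  have hr_apply : ∀ σ, r σ = LinearMap.toMatrix c c (ρ.ρ σ) := fun σ => rfl
  have hr_ij : ∀ σ i j, r σ i j = c.repr (ρ.ρ σ (c j)) i := fun σ i j => by
    rw [hr_apply, LinearMap.toMatrix_apply]
  have hrc : IsCont r := by
    intro n
    obtain ⟨L, hL, h1⟩ := ρ.isAdicContinuous n
    refine ⟨L, hL, fun σ hσ i j => ?_⟩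
    have h2 := h1 σ hσ (c j)
    have h3 : c.equivFun (ρ.ρ σ (c j) - c j) ∈
        (maximalIdeal A ^ n) • (⊤ : Submodule A (Fin 2 → A)) := by
      have := Submodule.mem_map_of_mem (f := c.equivFun.toLinearMap) h2
      rw [Submodule.map_smul''] at this
      exact Submodule.smul_mono le_rfl le_top this
    have h4 := forall_of_mem_smul_top _ _ h3 i
    rw [hr_ij]
    convert h4 using 1
    rw [map_sub, Pi.sub_apply, Module.Basis.equivFun_apply, Module.Basis.equivFun_apply,
      Module.Basis.repr_self, Matrix.one_apply, Finsupp.single_apply]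
    simp only [eq_comm]
  refine ⟨r, hrc, fun σ i j => ?_, ⟨⟨c.equivFun, fun σ x => ?_⟩⟩⟩
  · rw [← residue_eq_zero_iff, map_sub, sub_eq_zero, ← hφ, hD]
    have h1 : (ρ.ρ σ).baseChange (ResidueField A) (b' j) = ∑ i, residue A (r σ i j) • b' i := by
      rw [← hv j, ← hc j, TensorProduct.mk_apply, LinearMap.baseChange_tmul]
      conv_lhs => rw [← c.sum_repr (ρ.ρ σ (c j))]
      rw [TensorProduct.tmul_sum]
      refine Finset.sum_congr rfl fun i _ => ?_
      rw [TensorProduct.tmul_smul, ← hr_ij, ← hv i, ← hc i]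
      rfl
    have h2 := (hb' σ j).symm.trans h1
    have h3 := congrArg (fun y => b'.repr y i) h2
    simp only [map_sum, map_smul, Module.Basis.repr_self, Finsupp.coe_finsetSum, Finset.sum_apply,
      Finsupp.smul_apply, Finsupp.single_apply, smul_eq_mul, mul_ite, mul_one, mul_zero,
      Finset.sum_ite_eq', Finset.mem_univ, if_true] at h3
    exact h3.symm
  · change c.equivFun (ρ.ρ σ x) = (r σ).mulVec (c.equivFun x)
    rw [hr_apply]
    exact (LinearMap.toMatrix_mulVec_repr c c (ρ.ρ σ) x).symm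

theorem residual_ofMat {ρbar : ResidualGaloisRep (ResidueField 𝒪)}
    {b : Module.Basis (Fin 2) (ResidueField 𝒪) ρbar.V} (hD : Compat D ρbar b)
    (φ : ResidueField 𝒪 →+* ResidueField A)
    (hφ : ∀ c, φ (residue 𝒪 c) = residue A (algebraMap 𝒪 A c))
    (r : GQ →* M2 A) (hr : IsCont r)
    (red : ∀ σ i j, r σ i j - algebraMap 𝒪 A (D.cf σ i j) ∈ maximalIdeal A) :
    (ofMat r hr).residual.IsEquiv (ρbar.baseChangeAlong φ) := by
  refine isEquiv_of_basis φ ρbar _ b
    (((Pi.basisFun A (Fin 2)).baseChange (ResidueField A) :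
      Module.Basis (Fin 2) (ResidueField A) (ResidueField A ⊗[A] (Fin 2 → A)))) fun σ j => ?_
  change (Matrix.toLin' (r σ)).baseChange (ResidueField A)
    ((Pi.basisFun A (Fin 2)).baseChange (ResidueField A) j) =
    ∑ i, φ (LinearMap.toMatrix b b (ρbar.ρ σ) i j) •
      ((Pi.basisFun A (Fin 2)).baseChange (ResidueField A) i)
  simp only [Module.Basis.baseChange_apply, LinearMap.baseChange_tmul]
  have h1 : Matrix.toLin' (r σ) (Pi.basisFun A (Fin 2) j) =
      ∑ i, r σ i j • Pi.basisFun A (Fin 2) i := by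
    ext l
    rw [Matrix.toLin'_apply]
    simp [Matrix.mulVec, dotProduct, Pi.single_apply, Finset.sum_apply]
  rw [h1, TensorProduct.tmul_sum]
  refine Finset.sum_congr rfl fun i _ => ?_
  have h2 := residue_eq_of_sub_mem (red σ i j)
  rw [TensorProduct.tmul_smul, ← hD, hφ, ← h2]
  rfl

end

end Fermat.Agent.H04

end
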