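import Fermat.Agent.DefRing.Pairs
import Fermat.Agent.DefRing.Residual

set_option autoImplicit false
set_option linter.unusedSectionVars false
set_option linter.unnecessarySimpa false

noncomputable section

namespace Fermat.Agent.H04

open IsLocalRing GaloisRep

/-- dual numbers over the residue field with the `𝒪`-algebra structure used in `TangentFinite` -/
def DN (𝒪 : Type) [CommRing 𝒪] [IsLocalRing 𝒪] : Type := DualNumber (ResidueField 𝒪)

section DN
variable (𝒪 : Type) [CommRing 𝒪] [IsLocalRing 𝒪]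

instance : CommRing (DN 𝒪) := inferInstanceAs (CommRing (DualNumber (ResidueField 𝒪)))
instance : IsLocalRing (DN 𝒪) := inferInstanceAs (IsLocalRing (DualNumber (ResidueField 𝒪)))
instance instAlgebraDN : Algebra 𝒪 (DN 𝒪) :=
  ((algebraMap (ResidueField 𝒪) (DualNumber (ResidueField 𝒪))).comp
      (algebraMap 𝒪 (ResidueField 𝒪))).toAlgebra

/-- constructor for `DN` -/
def DN.mk (a b : ResidueField 𝒪) : DN 𝒪 := (a, b)

variable {𝒪}

lemma DN.ext {x y : DN 𝒪} (h1 : TrivSqZeroExt.fst (show DualNumber (ResidueField 𝒪) from x) =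
    TrivSqZeroExt.fst (show DualNumber (ResidueField 𝒪) from y))
    (h2 : TrivSqZeroExt.snd (show DualNumber (ResidueField 𝒪) from x) =
    TrivSqZeroExt.snd (show DualNumber (ResidueField 𝒪) from y)) : x = y :=
  TrivSqZeroExt.ext h1 h2

lemma DN.mk_add (a b c d : ResidueField 𝒪) : DN.mk 𝒪 a b + DN.mk 𝒪 c d =
    DN.mk 𝒪 (a + c) (b + d) := rfl

lemma DN.mk_mul (a b c d : ResidueField 𝒪) : DN.mk 𝒪 a b * DN.mk 𝒪 c d =
    DN.mk 𝒪 (a * c) (a * d + c * b) := by
  refine DN.ext ?_ ?_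
  · rfl
  · change a • d + MulOpposite.op c • b = a * d + c * b
    rw [smul_eq_mul, op_smul_eq_mul, mul_comm b c]

lemma DN.mk_inj {a b c d : ResidueField 𝒪} (h : DN.mk 𝒪 a b = DN.mk 𝒪 c d) : a = c ∧ b = d :=
  Prod.ext_iff.mp h

lemma DN.algebraMap_eq (c : 𝒪) : algebraMap 𝒪 (DN 𝒪) c = DN.mk 𝒪 (residue 𝒪 c) 0 := rfl

lemma DN.one_eq : (1 : DN 𝒪) = DN.mk 𝒪 1 0 := rfl
lemma DN.zero_eq : (0 : DN 𝒪) = DN.mk 𝒪 0 0 := rfl

lemma DN.isUnit_fst {a b : ResidueField 𝒪} (h : IsUnit (DN.mk 𝒪 a b)) : IsUnit a := by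
  obtain ⟨y, hy⟩ := h.exists_right_inv
  obtain ⟨c, d⟩ := y
  have : DN.mk 𝒪 a b * DN.mk 𝒪 c d = 1 := hy
  rw [DN.mk_mul, DN.one_eq] at this
  exact IsUnit.of_mul_eq_one _ (DN.mk_inj this).1

lemma test_DN [Finite (ResidueField 𝒪)] : IsArtinianTestAlgebra 𝒪 (DN 𝒪) := by
  have : Finite (DN 𝒪) := inferInstanceAs (Finite (ResidueField 𝒪 × ResidueField 𝒪))
  refine test_iff.mpr ⟨⟨⟨fun c hc => ?_⟩, fun a => ?_⟩, inferInstance⟩
  · rw [DN.algebraMap_eq] at hc
    exact IsLocalHom.map_nonunit (f := residue 𝒪) c (DN.isUnit_fst hc)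
  · obtain ⟨a, b⟩ := a
    obtain ⟨c, hc⟩ := residue_surjective a
    refine ⟨c, fun hu => ?_⟩
    have h1 : (show DN 𝒪 from (a, b)) - algebraMap 𝒪 (DN 𝒪) c = DN.mk 𝒪 0 b := by
      rw [DN.algebraMap_eq, sub_eq_iff_eq_add, DN.mk_add]
      exact Prod.ext (by simp [DN.mk, hc]) (by simp [DN.mk])
    have h2 : IsUnit (DN.mk 𝒪 0 b) := by
      rw [← h1]; exact hu
    exact not_isUnit_zero (DN.isUnit_fst h2)

end DN

section finite

variable {𝒪 : Type} [CommRing 𝒪] [IsLocalRing 𝒪]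
  {𝒟 : ∀ ⦃A : Type⦄ [CommRing A] [IsLocalRing A] [Algebra 𝒪 A], GaloisRepAdic A → Prop}
  {D : Dat 𝒪}

theorem finite_nreps {ρbar : ResidualGaloisRep (ResidueField 𝒪)}
    {b : Module.Basis (Fin 2) (ResidueField 𝒪) ρbar.V} (hD : Compat D ρbar b)
    [Finite (ResidueField 𝒪)] (hfin : TangentFinite 𝒪 ρbar 𝒟) :
    Set.Finite {r : GQ →* M2 (DN 𝒪) | IsNRep D r ∧ HasType 𝒟 r} := by
  have hloc : IsLocalHom (algebraMap 𝒪 (DN 𝒪)) := test_DN.isLocalHom
  unfold TangentFinite at hfin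
  let φ : ResidueField 𝒪 →+* ResidueField (DN 𝒪) :=
    (residue (DN 𝒪)).comp (algebraMap (ResidueField 𝒪) (DualNumber (ResidueField 𝒪)))
  rw [← Set.finite_coe_iff]
  refine @Finite.of_injective _ _ hfin (fun r => Quotient.mk _ ⟨ofMat r.1 r.2.1.cont, ?_, ?_⟩) ?_
  · obtain ⟨h1, h2⟩ := r.2.2
    exact h2
  · exact residual_ofMat hD φ (fun c => rfl) r.1 r.2.1.cont r.2.1.red
  · intro r s hrs
    have h1 := Quotient.exact hrs
    have h2 : (ofMat r.1 r.2.1.cont).IsEquiv (ofMat s.1 s.2.1.cont) := h1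
    exact Subtype.ext (IsNRep.eq_of_isEquiv hloc r.2.1 s.2.1 h2)

/-- a finite set of functions is separated by finitely many points -/
lemma exists_separating {ι X : Type*} {N : Set (ι → X)} (hN : N.Finite) :
    ∃ S : Finset ι, ∀ r ∈ N, ∀ s ∈ N, (∀ i ∈ S, r i = s i) → r = s := by
  classical
  have h1 : ∀ p : (ι → X) × (ι → X), ∃ T : Finset ι, (∀ i ∈ T, p.1 i = p.2 i) → p.1 = p.2 := by
    intro p
    by_cases h : p.1 = p.2
    · exact ⟨∅, fun _ => h⟩
    · obtain ⟨i, hi⟩ := Function.ne_iff.mp h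
      exact ⟨{i}, fun h' => absurd (h' i (by simp)) hi⟩
  choose T hT using h1
  let F := (hN.prod hN).toFinset
  refine ⟨F.biUnion T, fun r hr s hs h => hT (r, s) fun i hi => h i ?_⟩
  rw [Finset.mem_biUnion]
  exact ⟨(r, s), by simp [F, hr, hs], hi⟩

theorem exists_coords {ρbar : ResidualGaloisRep (ResidueField 𝒪)}
    {b : Module.Basis (Fin 2) (ResidueField 𝒪) ρbar.V} (hD : Compat D ρbar b)
    [Finite (ResidueField 𝒪)] (hfin : TangentFinite 𝒪 ρbar 𝒟) :
    ∃ S : Finset (GQ × Fin 2 × Fin 2), ∀ r s : GQ →* M2 (DN 𝒪), IsNRep D r → HasType 𝒟 r →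
      IsNRep D s → HasType 𝒟 s → (∀ p ∈ S, r p.1 p.2.1 p.2.2 = s p.1 p.2.1 p.2.2) → r = s := by
  have h1 := finite_nreps hD hfin
  let F : (GQ →* M2 (DN 𝒪)) → (GQ × Fin 2 × Fin 2 → DN 𝒪) := fun r p => r p.1 p.2.1 p.2.2
  obtain ⟨S, hS⟩ := exists_separating (h1.image F)
  refine ⟨S, fun r s hr tr hs ts h => ?_⟩
  have h2 := hS (F r) ⟨r, ⟨hr, tr⟩, rfl⟩ (F s) ⟨s, ⟨hs, ts⟩, rfl⟩ h
  ext σ i j
  exact congrFun h2 (σ, i, j)

end finite

section derivation

variable {𝒪 : Type} [CommRing 𝒪] [IsLocalRing 𝒪] {A : Type} [CommRing A] [IsLocalRing A]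
  [Algebra 𝒪 A]

/-- A local algebra with nonzero relative cotangent space has a nontrivial map to the dual
numbers. -/
theorem exists_map_DN (hA : PreTest 𝒪 A) (K : Ideal A)
    (h1 : (maximalIdeal 𝒪).map (algebraMap 𝒪 A) ≤ K) (h2 : maximalIdeal A ^ 2 ≤ K)
    (h3 : K ≤ maximalIdeal A) (h4 : K ≠ maximalIdeal A) :
    ∃ f g : A →ₐ[𝒪] DN 𝒪, IsLocalHom (f : A →+* DN 𝒪) ∧ IsLocalHom (g : A →+* DN 𝒪) ∧
      (∀ x ∈ K, f x = 0) ∧ (∀ x ∈ K, g x = 0) ∧ f ≠ g := by
  obtain ⟨aug, haug, haug0⟩ := exists_aug hA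
  obtain ⟨m, hm, hmK⟩ : ∃ m ∈ maximalIdeal A, m ∉ K := by
    by_contra hcon
    push Not at hcon
    exact h4 (le_antisymm h3 hcon)
  let B := A ⧸ K
  let σ : ResidueField 𝒪 →+* B := Ideal.Quotient.lift (maximalIdeal 𝒪)
    ((Ideal.Quotient.mk K).comp (algebraMap 𝒪 A)) (fun a ha => by
      rw [RingHom.comp_apply, Ideal.Quotient.eq_zero_iff_mem]
      exact h1 (Ideal.mem_map_of_mem _ ha))
  have hσ : ∀ c : 𝒪, σ (residue 𝒪 c) = Ideal.Quotient.mk K (algebraMap 𝒪 A c) := fun c => rfl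
  let : Module (ResidueField 𝒪) B := Module.compHom B σ
  have hsmul : ∀ (c : 𝒪) (y : A), residue 𝒪 c • (Ideal.Quotient.mk K y) =
      Ideal.Quotient.mk K (algebraMap 𝒪 A c * y) := fun c y => rfl
  have hnot : (Ideal.Quotient.mk K m : B) ∉
      Submodule.span (ResidueField 𝒪) {(1 : B)} := by
    intro hmem
    obtain ⟨c, hc⟩ := Submodule.mem_span_singleton.mp hmem
    obtain ⟨c, rfl⟩ := residue_surjective c
    have h5 : Ideal.Quotient.mk K (algebraMap 𝒪 A c * 1) = Ideal.Quotient.mk K m := by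
      rw [← hsmul, map_one]; exact hc
    rw [mul_one, Ideal.Quotient.eq] at h5
    have h6 : algebraMap 𝒪 A c ∈ maximalIdeal A := by
      have := Ideal.add_mem _ (h3 h5) hm
      simpa using this
    have h7 : c ∈ maximalIdeal 𝒪 := fun hu => h6 (hu.map _)
    have h8 : algebraMap 𝒪 A c ∈ K := h1 (Ideal.mem_map_of_mem _ h7)
    apply hmK
    have := Ideal.sub_mem _ h8 h5
    simpa using this
  obtain ⟨l, hl, hl1⟩ := Submodule.exists_le_ker_of_notMem hnot
  have hl1' : l (1 : B) = 0 := by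
    have : (1 : B) ∈ LinearMap.ker l := hl1 (Submodule.mem_span_singleton_self _)
    exact this
  have haugc : ∀ c : 𝒪, aug (algebraMap 𝒪 A c) = residue 𝒪 c := fun c => by
    rw [AlgHom.commutes]; rfl
  have hlc : ∀ c : 𝒪, l (Ideal.Quotient.mk K (algebraMap 𝒪 A c)) = 0 := by
    intro c
    have : (Ideal.Quotient.mk K (algebraMap 𝒪 A c) : B) = residue 𝒪 c • (1 : B) := by
      have := hsmul c 1
      rw [mul_one, map_one] at this
      exact this.symm
    rw [this, map_smul, hl1', smul_zero]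
  have hmul : ∀ a b : A, l (Ideal.Quotient.mk K (a * b)) =
      aug a * l (Ideal.Quotient.mk K b) + aug b * l (Ideal.Quotient.mk K a) := by
    intro a b
    obtain ⟨c, hc⟩ := hA.approx a
    obtain ⟨d, hd⟩ := hA.approx b
    have h5 : (a - algebraMap 𝒪 A c) * (b - algebraMap 𝒪 A d) ∈ K := by
      apply h2
      rw [pow_two]
      exact Ideal.mul_mem_mul hc hd
    have h6 : Ideal.Quotient.mk K (a * b) = residue 𝒪 c • (Ideal.Quotient.mk K b) +
        residue 𝒪 d • (Ideal.Quotient.mk K a) -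
        Ideal.Quotient.mk K (algebraMap 𝒪 A (c * d)) := by
      rw [hsmul, hsmul, ← map_add, ← map_sub, Ideal.Quotient.eq]
      convert h5 using 1
      rw [map_mul]
      ring
    have ha : aug a = residue 𝒪 c := by
      have := (haug0 _).mpr hc
      rwa [map_sub, haugc, sub_eq_zero] at this
    have hb : aug b = residue 𝒪 d := by
      have := (haug0 _).mpr hd
      rwa [map_sub, haugc, sub_eq_zero] at this
    rw [h6, map_sub, map_add, map_smul, map_smul, hlc, sub_zero, ha, hb, smul_eq_mul, smul_eq_mul]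
  let f : A →ₐ[𝒪] DN 𝒪 :=
    { toFun := fun a => DN.mk 𝒪 (aug a) (l (Ideal.Quotient.mk K a))
      map_one' := by rw [map_one, map_one, hl1']; rfl
      map_mul' := fun a b => by rw [DN.mk_mul, map_mul aug, hmul]
      map_zero' := by rw [map_zero, map_zero, map_zero]; rfl
      map_add' := fun a b => by rw [DN.mk_add, map_add, map_add, map_add]
      commutes' := fun c => by rw [haugc, hlc]; rfl }
  let g : A →ₐ[𝒪] DN 𝒪 :=
    { toFun := fun a => DN.mk 𝒪 (aug a) 0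
      map_one' := by rw [map_one]; rfl
      map_mul' := fun a b => by rw [DN.mk_mul, map_mul aug, mul_zero, mul_zero, add_zero]
      map_zero' := by rw [map_zero]; rfl
      map_add' := fun a b => by rw [DN.mk_add, map_add, add_zero]
      commutes' := fun c => by rw [haugc]; rfl }
  have hf : ∀ a, f a = DN.mk 𝒪 (aug a) (l (Ideal.Quotient.mk K a)) := fun a => rfl
  have hg : ∀ a, g a = DN.mk 𝒪 (aug a) 0 := fun a => rfl
  refine ⟨f, g, ⟨fun a ha => ?_⟩, ⟨fun a ha => ?_⟩, fun x hx => ?_, fun x hx => ?_, fun hfg => ?_⟩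
  · rw [RingHom.coe_coe, hf] at ha
    exact haug.map_nonunit _ (DN.isUnit_fst ha)
  · rw [RingHom.coe_coe, hg] at ha
    exact haug.map_nonunit _ (DN.isUnit_fst ha)
  · rw [hf, (haug0 x).mpr (h3 hx), Ideal.Quotient.eq_zero_iff_mem.mpr hx, map_zero]; rfl
  · rw [hg, (haug0 x).mpr (h3 hx)]; rfl
  · have := congrArg (fun F => F m) hfg
    simp only [hf, hg] at this
    exact hl (DN.mk_inj this).2

end derivation

end Fermat.Agent.H04

end
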