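import Fermat.Agent.DefRing.NRep

set_option autoImplicit false
set_option linter.unusedSectionVars false
set_option linter.unnecessarySimpa false

noncomputable section

namespace Fermat.Agent.H04

open IsLocalRing GaloisRep

variable (𝒪 : Type) [CommRing 𝒪] [IsLocalRing 𝒪]

/-- local `𝒪`-algebras with the same residue field -/
structure PreTest (A : Type) [CommRing A] [IsLocalRing A] [Algebra 𝒪 A] : Prop where
  isLocalHom : IsLocalHom (algebraMap 𝒪 A)
  approx : ∀ a : A, ∃ c : 𝒪, a - algebraMap 𝒪 A c ∈ maximalIdeal A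

variable {𝒪}

lemma preTest_iff {A : Type} [CommRing A] [IsLocalRing A] [Algebra 𝒪 A] :
    PreTest 𝒪 A ↔ IsLocalHom (algebraMap 𝒪 A) ∧
      Function.Surjective (IsLocalRing.residue A ∘ algebraMap 𝒪 A) := by
  constructor
  · rintro ⟨h1, h2⟩
    refine ⟨h1, fun y => ?_⟩
    obtain ⟨a, rfl⟩ := residue_surjective y
    obtain ⟨c, hc⟩ := h2 a
    refine ⟨c, ?_⟩
    rw [← residue_eq_zero_iff, map_sub, sub_eq_zero] at hc
    exact hc.symm
  · rintro ⟨h1, h2⟩
    refine ⟨h1, fun a => ?_⟩
    obtain ⟨c, hc⟩ := h2 (residue A a)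
    refine ⟨c, ?_⟩
    rw [← residue_eq_zero_iff, map_sub, sub_eq_zero]
    exact hc.symm

lemma test_iff {A : Type} [CommRing A] [IsLocalRing A] [Algebra 𝒪 A] :
    IsArtinianTestAlgebra 𝒪 A ↔ PreTest 𝒪 A ∧ IsArtinianRing A :=
  ⟨fun h => ⟨preTest_iff.mpr ⟨h.1, h.2⟩, h.3⟩, fun h =>
    ⟨(preTest_iff.mp h.1).1, (preTest_iff.mp h.1).2, h.2⟩⟩

lemma _root_.GaloisRep.IsArtinianTestAlgebra.preTest {A : Type} [CommRing A] [IsLocalRing A]
    [Algebra 𝒪 A] (h : IsArtinianTestAlgebra 𝒪 A) : PreTest 𝒪 A := (test_iff.mp h).1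

lemma finite_residueField [Finite (ResidueField 𝒪)] {A : Type} [CommRing A] [IsLocalRing A]
    [Algebra 𝒪 A] (h : PreTest 𝒪 A) : Finite (ResidueField A) := by
  have h1 := (preTest_iff.mp h).1
  have h2 := (preTest_iff.mp h).2
  refine Finite.of_surjective (IsLocalRing.ResidueField.map (algebraMap 𝒪 A)) fun y => ?_
  obtain ⟨c, hc⟩ := h2 y
  exact ⟨residue 𝒪 c, by rw [IsLocalRing.ResidueField.map_residue]; exact hc⟩

lemma finite_of_test [Finite (ResidueField 𝒪)] {A : Type} [CommRing A] [IsLocalRing A]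
    [Algebra 𝒪 A] (h : IsArtinianTestAlgebra 𝒪 A) : Finite A := by
  have h1 := finite_residueField h.preTest
  have h2 := h.isArtinian
  obtain ⟨n, hn⟩ := (isArtinianRing_iff_isNilpotent_maximalIdeal A).mp h2
  have h3 : Finite (A ⧸ (⊥ : Ideal A)) :=
    IsLocalRing.finite_quotient_iff.mpr ⟨n, by rw [hn]; exact le_rfl⟩
  exact Finite.of_equiv _ (RingEquiv.quotientBot A).toEquiv

/-- pulling back the `PreTest` condition along a local homomorphism -/
lemma preTest_of_localHom {A C : Type} [CommRing A] [IsLocalRing A] [Algebra 𝒪 A]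
    [CommRing C] [IsLocalRing C] [Algebra 𝒪 C] (j : C →ₐ[𝒪] A) (hj : IsLocalHom (j : C →+* A))
    (hA : PreTest 𝒪 A) : PreTest 𝒪 C where
  isLocalHom := ⟨fun c hc => by
    refine hA.isLocalHom.map_nonunit c ?_
    have := hc.map j
    rwa [AlgHom.commutes] at this⟩
  approx x := by
    obtain ⟨c, hc⟩ := hA.approx (j x)
    refine ⟨c, fun hu => hc ?_⟩
    have := hu.map j
    rwa [map_sub, AlgHom.commutes] at this

/-- pushing forward the `PreTest` condition along a surjection -/
lemma preTest_of_surjective {A B : Type} [CommRing A] [IsLocalRing A] [Algebra 𝒪 A]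
    [CommRing B] [IsLocalRing B] [Algebra 𝒪 B] (q : A →ₐ[𝒪] B) (hq : Function.Surjective q)
    (hA : PreTest 𝒪 A) : PreTest 𝒪 B := by
  have hloc : IsLocalHom (q : A →+* B) := IsLocalHom.of_surjective (q : A →+* B) hq
  exact
  { isLocalHom := ⟨fun c hc => by
      refine hA.isLocalHom.map_nonunit c ?_
      refine hloc.map_nonunit _ ?_
      rw [RingHom.coe_coe, AlgHom.commutes]
      exact hc⟩
    approx := fun y => by
      obtain ⟨x, rfl⟩ := hq y
      obtain ⟨c, hc⟩ := hA.approx x
      refine ⟨c, fun hu => hc ?_⟩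
      refine hloc.map_nonunit _ ?_
      rw [RingHom.coe_coe, map_sub, AlgHom.commutes]
      exact hu }

/-- a subalgebra of a finite local algebra : the inclusion is local -/
lemma isLocalHom_subalgebra {A : Type} [CommRing A] [Finite A] [Algebra 𝒪 A]
    (C : Subalgebra 𝒪 A) : IsLocalHom (C.val : C →+* A) := by
  constructor
  intro x hx
  have hx' : IsUnit (x : A) := hx
  have : Finite C := Subtype.finite
  refine IsArtinianRing.isUnit_of_mem_nonZeroDivisors ?_
  rw [mem_nonZeroDivisors_iff_right]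
  intro y hy
  have : (y : A) * x = 0 := by
    have := congrArg (Subtype.val) hy
    simpa using this
  exact Subtype.ext (by simpa using (hx'.mul_left_eq_zero).mp this)

lemma isLocalRing_subalgebra {A : Type} [CommRing A] [Finite A] [IsLocalRing A] [Algebra 𝒪 A]
    (C : Subalgebra 𝒪 A) : IsLocalRing C :=
  have := isLocalHom_subalgebra C
  RingHom.domain_isLocalRing (C.val : C →+* A)

lemma test_subalgebra [Finite (ResidueField 𝒪)] {A : Type} [CommRing A] [IsLocalRing A]
    [Algebra 𝒪 A] (hA : IsArtinianTestAlgebra 𝒪 A) (C : Subalgebra 𝒪 A) [IsLocalRing C] :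
    IsArtinianTestAlgebra 𝒪 C := by
  have : Finite A := finite_of_test hA
  have : Finite C := Subtype.finite
  exact test_iff.mpr ⟨preTest_of_localHom C.val (isLocalHom_subalgebra C) hA.preTest,
    inferInstance⟩

lemma test_of_surjective {A B : Type} [CommRing A] [IsLocalRing A] [Algebra 𝒪 A]
    [CommRing B] [IsLocalRing B] [Algebra 𝒪 B] (q : A →ₐ[𝒪] B) (hq : Function.Surjective q)
    (hA : IsArtinianTestAlgebra 𝒪 A) : IsArtinianTestAlgebra 𝒪 B :=
  test_iff.mpr ⟨preTest_of_surjective q hq hA.preTest,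
    have := hA.isArtinian
    Function.Surjective.isArtinianRing (f := (q : A →+* B)) hq⟩

lemma test_quotient_pow [Finite (ResidueField 𝒪)] {A : Type} [CommRing A] [IsLocalRing A]
    [IsNoetherianRing A] [Algebra 𝒪 A] (hA : PreTest 𝒪 A) (n : ℕ)
    [IsLocalRing (A ⧸ maximalIdeal A ^ n)] :
    IsArtinianTestAlgebra 𝒪 (A ⧸ maximalIdeal A ^ n) := by
  have h1 := finite_residueField hA
  have h2 : Finite (A ⧸ maximalIdeal A ^ n) := IsLocalRing.finite_quotient_iff.mpr ⟨n, le_rfl⟩
  exact test_iff.mpr ⟨preTest_of_surjective (Ideal.Quotient.mkₐ 𝒪 (maximalIdeal A ^ n))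
    (Ideal.Quotient.mkₐ_surjective _ _) hA, inferInstance⟩

lemma isLocalRing_quotient {A : Type} [CommRing A] [IsLocalRing A] (I : Ideal A) (hI : I ≠ ⊤) :
    IsLocalRing (A ⧸ I) :=
  have := Ideal.Quotient.nontrivial_iff.mpr hI
  IsLocalRing.of_surjective' (Ideal.Quotient.mk I) Ideal.Quotient.mk_surjective

lemma test_residueField : IsArtinianTestAlgebra 𝒪 (ResidueField 𝒪) where
  isLocalHom := ⟨fun c hc => by
    rw [IsLocalRing.ResidueField.algebraMap_eq] at hc
    have := IsLocalHom.map_nonunit (f := residue 𝒪) c hc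
    exact this⟩
  residue_surjective := fun y => by
    obtain ⟨x, rfl⟩ := residue_surjective y
    obtain ⟨c, rfl⟩ := residue_surjective x
    exact ⟨c, rfl⟩
  isArtinian := inferInstance

section fibre

/-- The augmentation of a test algebra. -/
theorem exists_aug {A : Type} [CommRing A] [IsLocalRing A] [Algebra 𝒪 A] (h : PreTest 𝒪 A) :
    ∃ f : A →ₐ[𝒪] ResidueField 𝒪, IsLocalHom (f : A →+* ResidueField 𝒪) ∧
      ∀ a, f a = 0 ↔ a ∈ maximalIdeal A := by
  have h1 := h.isLocalHom
  have h2 := (preTest_iff.mp h).2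
  have hb : Function.Bijective (IsLocalRing.ResidueField.map (algebraMap 𝒪 A)) := by
    refine ⟨RingHom.injective _, fun y => ?_⟩
    obtain ⟨c, hc⟩ := h2 y
    exact ⟨residue 𝒪 c, by rw [IsLocalRing.ResidueField.map_residue]; exact hc⟩
  let e := RingEquiv.ofBijective _ hb
  have he : ∀ c : 𝒪, e.symm (residue A (algebraMap 𝒪 A c)) = residue 𝒪 c := by
    intro c
    rw [RingEquiv.symm_apply_eq]
    change _ = IsLocalRing.ResidueField.map (algebraMap 𝒪 A) (residue 𝒪 c)
    rw [IsLocalRing.ResidueField.map_residue]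
  let f : A →ₐ[𝒪] ResidueField 𝒪 :=
    { (e.symm : ResidueField A →+* ResidueField 𝒪).comp (residue A) with
      commutes' := fun c => he c }
  have hf : ∀ a, f a = e.symm (residue A a) := fun a => rfl
  refine ⟨f, ⟨fun a ha => ?_⟩, fun a => ?_⟩
  · rw [RingHom.coe_coe, hf] at ha
    have h3 : IsUnit (residue A a) := by
      have := ha.map e
      rwa [RingEquiv.apply_symm_apply] at this
    exact IsLocalHom.map_nonunit (f := residue A) a h3
  · rw [hf, map_eq_zero_iff _ e.symm.injective, residue_eq_zero_iff]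

end fibre

end Fermat.Agent.H04

end
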