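import Fermat.Agent.DefRing.Key

set_option autoImplicit false
set_option linter.unusedSectionVars false
set_option linter.unnecessarySimpa false

noncomputable section

namespace Fermat.Agent.H04

open IsLocalRing GaloisRep

variable {𝒪 : Type} [CommRing 𝒪] [IsLocalRing 𝒪]
  {𝒟 : ∀ ⦃A : Type⦄ [CommRing A] [IsLocalRing A] [Algebra 𝒪 A], GaloisRepAdic A → Prop}
  {D : Dat 𝒪} {ϖ : 𝒪} {S : Finset Idx}

/-- The big power series ring. -/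
abbrev Lam (𝒪 : Type) [CommRing 𝒪] (S : Finset Idx) : Type := MvPowerSeries (Option S) 𝒪

/-- Standing hypotheses. -/
structure Ctx
    (𝒟 : ∀ ⦃A : Type⦄ [CommRing A] [IsLocalRing A] [Algebra 𝒪 A], GaloisRepAdic A → Prop)
    (D : Dat 𝒪) (ϖ : 𝒪) (S : Finset Idx) : Prop where
  h𝒟 : IsDeformationCondition 𝒪 𝒟
  hS : Sep 𝒟 D S
  hϖ : maximalIdeal 𝒪 = Ideal.span {ϖ}
  hk : Finite (ResidueField 𝒪)
  base : ∃ r : GQ →* M2 (ResidueField 𝒪), IsNRep D r ∧ HasType 𝒟 r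

lemma Ctx.hϖm (h : Ctx 𝒟 D ϖ S) : ϖ ∈ maximalIdeal 𝒪 := by
  rw [h.hϖ]; exact Ideal.mem_span_singleton_self _

/-- good quotients of the power series ring -/
structure Good
    (𝒟 : ∀ ⦃A : Type⦄ [CommRing A] [IsLocalRing A] [Algebra 𝒪 A], GaloisRepAdic A → Prop)
    (D : Dat 𝒪) (ϖ : 𝒪) (S : Finset Idx) (I : Ideal (Lam 𝒪 S)) (r : GQ →* M2 (Lam 𝒪 S ⧸ I)) :
    Prop where
  [loc : IsLocalRing (Lam 𝒪 S ⧸ I)]
  test : IsArtinianTestAlgebra 𝒪 (Lam 𝒪 S ⧸ I)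
  nrep : IsNRep D r
  type : HasType 𝒟 r
  gens : ∀ i, Ideal.Quotient.mk I (MvPowerSeries.X i) = gen D ϖ S r i

lemma mapM_comp {A B C : Type} [CommRing A] [CommRing B] [CommRing C] (f : A →+* B) (g : B →+* C)
    (r : GQ →* M2 A) : mapM g (mapM f r) = mapM (g.comp f) r := by
  ext σ i j
  rfl

lemma mapM_id {A : Type} [CommRing A] (r : GQ →* M2 A) : mapM (RingHom.id A) r = r := by
  ext σ i j
  rfl

lemma isLocalHom_of_surj {A B : Type} [CommRing A] [IsLocalRing A] [Algebra 𝒪 A] [CommRing B]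
    [Nontrivial B] [Algebra 𝒪 B] (f : A →ₐ[𝒪] B) (hf : Function.Surjective f) :
    IsLocalHom (f : A →+* B) := IsLocalHom.of_surjective (f : A →+* B) hf

/-- transporting along an isomorphism -/
lemma good_of_surjective (c : Ctx 𝒟 D ϖ S) {C : Type} [CommRing C] [IsLocalRing C] [Algebra 𝒪 C]
    (tC : IsArtinianTestAlgebra 𝒪 C) (f : Lam 𝒪 S →ₐ[𝒪] C) (hf : Function.Surjective f)
    (s : GQ →* M2 C) (hs : IsNRep D s) (ts : HasType 𝒟 s)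
    (hgen : ∀ i, f (MvPowerSeries.X i) = gen D ϖ S s i) :
    ∃ r : GQ →* M2 (Lam 𝒪 S ⧸ RingHom.ker f), Good 𝒟 D ϖ S (RingHom.ker f) r ∧
      mapM (Ideal.kerLiftAlg f : _ →+* C) r = s := by
  let e : C →ₐ[𝒪] (Lam 𝒪 S ⧸ RingHom.ker f) :=
    ((Ideal.quotientKerAlgEquivOfSurjective hf).symm : C ≃ₐ[𝒪] (Lam 𝒪 S ⧸ RingHom.ker f))
  have he : ∀ y, e (f y) = Ideal.Quotient.mk _ y :=
    Ideal.quotientKerAlgEquivOfSurjective_symm_apply hf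
  have hloc : IsLocalRing (Lam 𝒪 S ⧸ RingHom.ker f) :=
    (Ideal.quotientKerAlgEquivOfSurjective hf).symm.toRingEquiv.isLocalRing
  have hsurj : Function.Surjective e := (Ideal.quotientKerAlgEquivOfSurjective hf).symm.surjective
  have tQ : IsArtinianTestAlgebra 𝒪 (Lam 𝒪 S ⧸ RingHom.ker f) := test_of_surjective e hsurj tC
  have hloc' := isLocalHom_of_surj e hsurj
  refine ⟨mapM (e : C →+* Lam 𝒪 S ⧸ RingHom.ker f) s,
    ⟨tQ, hs.map e hloc', ts.map c.h𝒟 tC tQ e hloc', fun i => ?_⟩, ?_⟩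
  · rw [gen_map, ← hgen, he]
  · ext σ i j
    obtain ⟨y, hy⟩ := hf (s σ i j)
    rw [mapM_apply, mapM_apply, ← hy]
    change Ideal.kerLiftAlg f (e (f y)) = f y
    rw [he, Ideal.kerLiftAlg_mk]

/-- `K1` -/
theorem exists_good (c : Ctx 𝒟 D ϖ S) {A : Type} [CommRing A] [IsLocalRing A] [Algebra 𝒪 A]
    (hA : IsArtinianTestAlgebra 𝒪 A) {r : GQ →* M2 A} (hr : IsNRep D r) (tr : HasType 𝒟 r) :
    ∃ (f : Lam 𝒪 S →ₐ[𝒪] A) (r' : GQ →* M2 (Lam 𝒪 S ⧸ RingHom.ker f)),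
      (∀ i, f (MvPowerSeries.X i) = gen D ϖ S r i) ∧ Good 𝒟 D ϖ S (RingHom.ker f) r' ∧
      mapM (Ideal.kerLiftAlg f : _ →+* A) r' = r := by
  have := c.hk
  obtain ⟨C, locC, f, s, hf, hgen, hs, hsn, hst, tC⟩ := key_lemma c.hS c.h𝒟 hA hr tr c.hϖ
  obtain ⟨r', hr', hmap⟩ := good_of_surjective c tC f hf s hsn hst hgen
  have hker : RingHom.ker (C.val.comp f) = RingHom.ker f := by
    ext x
    rw [RingHom.mem_ker, RingHom.mem_ker, AlgHom.comp_apply, Subalgebra.coe_val,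
      ZeroMemClass.coe_eq_zero]
  have key : ∀ (I : Ideal (Lam 𝒪 S)) (hI : I = RingHom.ker f),
      ∃ r'' : GQ →* M2 (Lam 𝒪 S ⧸ I), Good 𝒟 D ϖ S I r'' ∧
      ∀ σ i j, ∃ y : Lam 𝒪 S, Ideal.Quotient.mk I y = r'' σ i j ∧ (f y : A) = r σ i j := by
    rintro I rfl
    refine ⟨r', hr', fun σ i j => ?_⟩
    obtain ⟨y, hy⟩ := Ideal.Quotient.mk_surjective (r' σ i j)
    refine ⟨y, hy, ?_⟩
    rw [← hs, mapM_apply, ← hmap, mapM_apply, ← hy]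
    rfl
  obtain ⟨r'', h1, h2⟩ := key _ hker
  refine ⟨C.val.comp f, r'', fun i => ?_, h1, ?_⟩
  · rw [AlgHom.comp_apply, hgen, ← gen_map, hs]
  · ext σ i j
    obtain ⟨y, hy1, hy2⟩ := h2 σ i j
    rw [mapM_apply, ← hy1, ← hy2]
    rfl

/-- nilpotency of the maximal ideal of a good quotient -/
lemma Good.exists_pow_le {I : Ideal (Lam 𝒪 S)} {r : GQ →* M2 (Lam 𝒪 S ⧸ I)}
    (h : Good 𝒟 D ϖ S I r) (c : Ctx 𝒟 D ϖ S) : ∃ n, XI (Option S) 𝒪 ^ n ≤ I := by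
  have := h.loc
  have := h.test.isArtinian
  obtain ⟨n, hn⟩ := (isArtinianRing_iff_isNilpotent_maximalIdeal (Lam 𝒪 S ⧸ I)).mp inferInstance
  refine ⟨n, fun x hx => ?_⟩
  have h1 := algHom_maps_pow (Ideal.Quotient.mkₐ 𝒪 I) (maximalIdeal (Lam 𝒪 S ⧸ I)) (fun i => by
    rw [Ideal.Quotient.mkₐ_eq_mk, h.gens]
    exact gen_mem c.hϖm h.test.isLocalHom S h.nrep i) n hx
  rw [hn] at h1
  exact Ideal.Quotient.eq_zero_iff_mem.mp h1

lemma Good.X_none_sub_mem {I : Ideal (Lam 𝒪 S)} {r : GQ →* M2 (Lam 𝒪 S ⧸ I)}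
    (h : Good 𝒟 D ϖ S I r) : (MvPowerSeries.X none - algebraMap 𝒪 (Lam 𝒪 S) ϖ) ∈ I := by
  have h1 := h.gens none
  rw [gen] at h1
  rw [← Ideal.Quotient.eq_zero_iff_mem, map_sub, h1]
  exact sub_self _

lemma Good.ne_top {I : Ideal (Lam 𝒪 S)} {r : GQ →* M2 (Lam 𝒪 S ⧸ I)}
    (h : Good 𝒟 D ϖ S I r) : I ≠ ⊤ := by
  have := h.loc
  exact Ideal.Quotient.nontrivial_iff.mp inferInstance

/-- closure under intersection, and compatibility -/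
theorem Good.inf {I I' : Ideal (Lam 𝒪 S)} {r : GQ →* M2 (Lam 𝒪 S ⧸ I)}
    {r' : GQ →* M2 (Lam 𝒪 S ⧸ I')} (c : Ctx 𝒟 D ϖ S)
    (h : Good 𝒟 D ϖ S I r) (h' : Good 𝒟 D ϖ S I' r') :
    (∃ r'' : GQ →* M2 (Lam 𝒪 S ⧸ (I ⊓ I')), Good 𝒟 D ϖ S (I ⊓ I') r'') ∧
    ∀ σ i j, ∃ y : Lam 𝒪 S, Ideal.Quotient.mk I y = r σ i j ∧ Ideal.Quotient.mk I' y = r' σ i j := by
  have := c.hk
  have l1 := h.loc
  have l2 := h'.loc
  have a1 := h.test.isArtinian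
  have a2 := h'.test.isArtinian
  obtain ⟨P, _, _, _, tP, pA, pB, t, lA, lB, hinj, hn, ht, hA, hB⟩ :=
    exists_fibreProduct c.h𝒟 h.test h'.test h.nrep h'.nrep h.type h'.type
  obtain ⟨f, s, hf, hs, hmap⟩ := exists_good c tP hn ht
  obtain ⟨n, hnil⟩ := (isArtinianRing_iff_isNilpotent_maximalIdeal (Lam 𝒪 S ⧸ I)).mp inferInstance
  obtain ⟨n', hnil'⟩ :=
    (isArtinianRing_iff_isNilpotent_maximalIdeal (Lam 𝒪 S ⧸ I')).mp inferInstance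
  have hfA : pA.comp f = Ideal.Quotient.mkₐ 𝒪 I := by
    refine algHom_unique _ _ (maximalIdeal (Lam 𝒪 S ⧸ I)) (fun i => ?_) (fun i => ?_) hnil
    · rw [AlgHom.comp_apply, hf, ← gen_map, hA]
      exact gen_mem c.hϖm h.test.isLocalHom S h.nrep i
    · rw [AlgHom.comp_apply, hf, ← gen_map, hA, Ideal.Quotient.mkₐ_eq_mk, h.gens]
  have hfB : pB.comp f = Ideal.Quotient.mkₐ 𝒪 I' := by
    refine algHom_unique _ _ (maximalIdeal (Lam 𝒪 S ⧸ I')) (fun i => ?_) (fun i => ?_) hnil'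
    · rw [AlgHom.comp_apply, hf, ← gen_map, hB]
      exact gen_mem c.hϖm h'.test.isLocalHom S h'.nrep i
    · rw [AlgHom.comp_apply, hf, ← gen_map, hB, Ideal.Quotient.mkₐ_eq_mk, h'.gens]
  have hA' : ∀ y, pA (f y) = Ideal.Quotient.mk I y := fun y => congrArg (fun F => F y) hfA
  have hB' : ∀ y, pB (f y) = Ideal.Quotient.mk I' y := fun y => congrArg (fun F => F y) hfB
  have hker : RingHom.ker f = I ⊓ I' := by
    ext y
    rw [RingHom.mem_ker, Ideal.mem_inf, ← Ideal.Quotient.eq_zero_iff_mem (I := I),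
      ← Ideal.Quotient.eq_zero_iff_mem (I := I'), ← hA', ← hB']
    constructor
    · intro h0; rw [h0, map_zero, map_zero]; exact ⟨rfl, rfl⟩
    · rintro ⟨h1, h2⟩
      exact hinj _ _ (by rw [h1, map_zero]) (by rw [h2, map_zero])
  refine ⟨hker ▸ ⟨s, hs⟩, fun σ i j => ?_⟩
  obtain ⟨y, hy⟩ := Ideal.Quotient.mk_surjective (s σ i j)
  have hy' : f y = t σ i j := by
    rw [← hmap, mapM_apply, ← hy]; rfl
  refine ⟨y, ?_, ?_⟩
  · rw [← hA', hy', ← hA]; rfl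
  · rw [← hB', hy', ← hB]; rfl

theorem Good.factor_eq {I I' : Ideal (Lam 𝒪 S)} {r : GQ →* M2 (Lam 𝒪 S ⧸ I)}
    {r' : GQ →* M2 (Lam 𝒪 S ⧸ I')} (c : Ctx 𝒟 D ϖ S)
    (h : Good 𝒟 D ϖ S I r) (h' : Good 𝒟 D ϖ S I' r') (hle : I ≤ I') :
    mapM (Ideal.Quotient.factor hle) r = r' := by
  ext σ i j
  obtain ⟨y, hy1, hy2⟩ := (h.inf c h').2 σ i j
  rw [mapM_apply, ← hy1, ← hy2, Ideal.Quotient.factor_mk]

theorem Good.up {I I' : Ideal (Lam 𝒪 S)} {r : GQ →* M2 (Lam 𝒪 S ⧸ I)} (c : Ctx 𝒟 D ϖ S)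
    (h : Good 𝒟 D ϖ S I r) (hle : I ≤ I') (hne : I' ≠ ⊤) :
    Good 𝒟 D ϖ S I' (mapM (Ideal.Quotient.factor hle) r) := by
  have l1 := h.loc
  have l2 : IsLocalRing (Lam 𝒪 S ⧸ I') := by
    have := Ideal.Quotient.nontrivial_iff.mpr hne
    exact IsLocalRing.of_surjective' (Ideal.Quotient.factor hle)
      (Ideal.Quotient.factor_surjective hle)
  have hsurj : Function.Surjective (Ideal.Quotient.factorₐ 𝒪 hle) :=
    Ideal.Quotient.factor_surjective hle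
  have tQ := test_of_surjective (Ideal.Quotient.factorₐ 𝒪 hle) hsurj h.test
  have hloc' := isLocalHom_of_surj (Ideal.Quotient.factorₐ 𝒪 hle) hsurj
  refine ⟨tQ, h.nrep.map (Ideal.Quotient.factorₐ 𝒪 hle) hloc',
    h.type.map c.h𝒟 h.test tQ (Ideal.Quotient.factorₐ 𝒪 hle) hloc', fun i => ?_⟩
  have := gen_map (D := D) ϖ S (Ideal.Quotient.factorₐ 𝒪 hle) r i
  refine Eq.trans ?_ this.symm
  rw [← h.gens]
  rfl

end Fermat.Agent.H04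

end
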