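import Fermat.Agent.DefRing.Univ1
import Fermat.Prelude.Thm_IsAdicComplete_of_module_finite

set_option autoImplicit false
set_option linter.unusedSectionVars false
set_option linter.unnecessarySimpa false

noncomputable section

namespace Fermat.Agent.H04

open IsLocalRing GaloisRep

section general

lemma sup_pow_le {R : Type} [CommRing R] (I J : Ideal R) (n : ℕ) : (I ⊔ J) ^ n ≤ I ^ n ⊔ J := by
  induction n with
  | zero => simp
  | succ n ih =>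
    rw [pow_succ, pow_succ]
    calc (I ⊔ J) ^ n * (I ⊔ J) ≤ (I ^ n ⊔ J) * (I ⊔ J) := Ideal.mul_mono_left ih
      _ ≤ I ^ n * I ⊔ J := by
        rw [Ideal.sup_mul, Ideal.mul_sup, Ideal.mul_sup]
        refine sup_le (sup_le le_sup_left
            (le_trans (le_trans Ideal.mul_le_inf inf_le_right) le_sup_right))
          (sup_le (le_trans (le_trans Ideal.mul_le_inf inf_le_left) le_sup_right)
            (le_trans (le_trans Ideal.mul_le_inf inf_le_right) le_sup_right))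

lemma exists_lim {R : Type} [CommRing R] (I : Ideal R) [IsPrecomplete I R] (f : ℕ → R)
    (hf : ∀ n, f n - f (n + 1) ∈ I ^ n) : ∃ L, ∀ n, f n - L ∈ I ^ n := by
  have key : ∀ m k, f m - f (m + k) ∈ I ^ m := by
    intro m k
    induction k with
    | zero => simp
    | succ k ih =>
      have h1 : f (m + k) - f (m + (k + 1)) ∈ I ^ m :=
        Ideal.pow_le_pow_right (Nat.le_add_right m k) (hf (m + k))
      have := Ideal.add_mem _ ih h1
      simpa using this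
  obtain ⟨L, hL⟩ := IsPrecomplete.prec (I := I) inferInstance (f := f) (fun {m n} hmn => by
    obtain ⟨k, rfl⟩ := Nat.exists_eq_add_of_le hmn
    rw [SModEq.sub_mem, smul_eq_mul, Ideal.mul_top]
    exact key m k)
  refine ⟨L, fun n => ?_⟩
  have := hL n
  rwa [SModEq.sub_mem, smul_eq_mul, Ideal.mul_top] at this

lemma eq_of_forall_sub_mem {R : Type} [CommRing R] (I : Ideal R) [IsHausdorff I R] {x y : R}
    (h : ∀ n, x - y ∈ I ^ n) : x = y := by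
  rw [← sub_eq_zero]
  refine IsHausdorff.haus (I := I) inferInstance _ fun n => ?_
  rw [SModEq.sub_mem, smul_eq_mul, Ideal.mul_top, sub_zero]
  exact h n

end general

variable {𝒪 : Type} [CommRing 𝒪] [IsLocalRing 𝒪]
  {𝒟 : ∀ ⦃A : Type⦄ [CommRing A] [IsLocalRing A] [Algebra 𝒪 A], GaloisRepAdic A → Prop}
  {D : Dat 𝒪} {ϖ : 𝒪} {S : Finset Idx}

lemma sub_C_mem {ι : Type} [Finite ι] (p : MvPowerSeries ι 𝒪) :
    p - algebraMap 𝒪 _ (MvPowerSeries.constantCoeff p) ∈ XI ι 𝒪 := by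
  have h1 := sub_trunc_mem 1 p
  rw [pow_one] at h1
  have h2 : (MvPowerSeries.truncTotal 1 p) = MvPolynomial.C (MvPowerSeries.constantCoeff p) := by
    classical
    ext x
    rw [MvPowerSeries.coeff_truncTotal_eq_ite, MvPolynomial.coeff_C]
    by_cases hx : x = 0
    · subst hx; simp
    · have : ¬ x.degree < 1 := by
        intro h
        apply hx
        rw [Nat.lt_one_iff, Finsupp.degree_eq_zero_iff] at h
        exact h
      rw [if_neg this, if_neg (Ne.symm hx)]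
  rw [h2, MvPolynomial.coe_C] at h1
  exact h1

lemma XI_ne_top {ι : Type} [Finite ι] : XI ι 𝒪 ≠ ⊤ := by
  intro h
  have h1 : XI ι 𝒪 ≤ RingHom.ker (MvPowerSeries.constantCoeff (σ := ι) (R := 𝒪)) := by
    rw [XI, Ideal.span_le]
    rintro _ ⟨i, rfl⟩
    exact MvPowerSeries.constantCoeff_X i
  rw [h, top_le_iff] at h1
  have : (1 : MvPowerSeries ι 𝒪) ∈ RingHom.ker (MvPowerSeries.constantCoeff (σ := ι) (R := 𝒪)) := by
    rw [h1]; trivial
  rw [RingHom.mem_ker, map_one] at this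
  exact one_ne_zero this

/-- the auxiliary ideals -/
def Nid (ϖ : 𝒪) (S : Finset Idx) (n : ℕ) : Ideal (Lam 𝒪 S) :=
  XI (Option S) 𝒪 ^ (n + 1) ⊔
    Ideal.span {MvPowerSeries.X none - algebraMap 𝒪 (Lam 𝒪 S) ϖ}

lemma Nid_anti (n : ℕ) : Nid ϖ S (n + 1) ≤ Nid ϖ S n :=
  sup_le_sup_right (Ideal.pow_le_pow_right (Nat.le_succ _)) _

lemma finite_quot_Nid [IsNoetherianRing 𝒪] (c : Ctx 𝒟 D ϖ S) (n : ℕ) :
    Finite (Lam 𝒪 S ⧸ Nid ϖ S n) := by
  have := c.hk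
  have h0 : Finite (Lam 𝒪 S ⧸ Nid ϖ S 0) := by
    have hϖ0 : algebraMap 𝒪 (Lam 𝒪 S) ϖ ∈ Nid ϖ S 0 := by
      have h1 : (MvPowerSeries.X none : Lam 𝒪 S) ∈ Nid ϖ S 0 := by
        refine (le_sup_left : XI (Option S) 𝒪 ^ (0 + 1) ≤ _) ?_
        rw [zero_add, pow_one]
        exact Ideal.subset_span ⟨none, rfl⟩
      have h2 : (MvPowerSeries.X none - algebraMap 𝒪 (Lam 𝒪 S) ϖ) ∈ Nid ϖ S 0 :=
        (le_sup_right : Ideal.span {MvPowerSeries.X none - algebraMap 𝒪 (Lam 𝒪 S) ϖ} ≤ _)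
          (Ideal.mem_span_singleton_self _)
      have := Ideal.sub_mem _ h1 h2
      simpa using this
    let g : ResidueField 𝒪 →+* Lam 𝒪 S ⧸ Nid ϖ S 0 := Ideal.Quotient.lift (maximalIdeal 𝒪)
      ((Ideal.Quotient.mk (Nid ϖ S 0)).comp (algebraMap 𝒪 (Lam 𝒪 S))) (fun a ha => by
        rw [c.hϖ, Ideal.mem_span_singleton] at ha
        obtain ⟨b, rfl⟩ := ha
        rw [RingHom.comp_apply, map_mul, Ideal.Quotient.eq_zero_iff_mem]
        exact Ideal.mul_mem_right _ _ hϖ0)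
    refine Finite.of_surjective g fun y => ?_
    obtain ⟨p, rfl⟩ := Ideal.Quotient.mk_surjective y
    refine ⟨residue 𝒪 (MvPowerSeries.constantCoeff p), ?_⟩
    change Ideal.Quotient.mk (Nid ϖ S 0)
      (algebraMap 𝒪 (Lam 𝒪 S) (MvPowerSeries.constantCoeff p)) = _
    rw [eq_comm, Ideal.Quotient.eq]
    refine (le_sup_left : XI (Option S) 𝒪 ^ (0 + 1) ≤ _) ?_
    rw [zero_add, pow_one]
    exact sub_C_mem p
  have h1 : Finite (Lam 𝒪 S ⧸ Nid ϖ S 0 ^ (n + 1)) :=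
    Ideal.finite_quotient_pow (IsNoetherian.noetherian _) _
  have h2 : Nid ϖ S 0 ^ (n + 1) ≤ Nid ϖ S n := by
    have := sup_pow_le (XI (Option S) 𝒪)
      (Ideal.span {MvPowerSeries.X none - algebraMap 𝒪 (Lam 𝒪 S) ϖ}) (n + 1)
    unfold Nid
    rwa [zero_add, pow_one]
  exact Finite.of_surjective _ (Ideal.Quotient.factor_surjective h2)

lemma exists_base (c : Ctx 𝒟 D ϖ S) : ∃ (I : Ideal (Lam 𝒪 S)) (r : GQ →* M2 (Lam 𝒪 S ⧸ I)),
    Good 𝒟 D ϖ S I r ∧ XI (Option S) 𝒪 ≤ I := by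
  obtain ⟨r, hr, tr⟩ := c.base
  obtain ⟨f, r', hf, hg, -⟩ := exists_good c test_residueField hr tr
  refine ⟨_, r', hg, ?_⟩
  rw [XI, Ideal.span_le]
  rintro _ ⟨i, rfl⟩
  rw [SetLike.mem_coe, RingHom.mem_ker, hf]
  have h1 := gen_mem c.hϖm (test_residueField (𝒪 := 𝒪)).isLocalHom S hr i
  have hbot : maximalIdeal (ResidueField 𝒪) = ⊥ := IsLocalRing.maximalIdeal_eq_bot
  rw [hbot] at h1
  exact h1

theorem exists_least [IsNoetherianRing 𝒪] (c : Ctx 𝒟 D ϖ S) (n : ℕ) :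
    ∃ (I : Ideal (Lam 𝒪 S)), (∃ r : GQ →* M2 (Lam 𝒪 S ⧸ I), Good 𝒟 D ϖ S I r) ∧
      Nid ϖ S n ≤ I ∧ ∀ (I' : Ideal (Lam 𝒪 S)) (r' : GQ →* M2 (Lam 𝒪 S ⧸ I')),
      Good 𝒟 D ϖ S I' r' → Nid ϖ S n ≤ I' → I ≤ I' := by
  have hfin := finite_quot_Nid c n
  have hfin2 : Finite (Submodule (Lam 𝒪 S) (Lam 𝒪 S ⧸ Nid ϖ S n)) := inferInstance
  have hfin3 : (Set.Ici (Nid ϖ S n)).Finite := by
    rw [← Set.finite_coe_iff]
    exact Finite.of_equiv _ (Submodule.comapMkQRelIso (Nid ϖ S n)).toEquiv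
  let T : Set (Ideal (Lam 𝒪 S)) :=
    {I | (∃ r : GQ →* M2 (Lam 𝒪 S ⧸ I), Good 𝒟 D ϖ S I r) ∧ Nid ϖ S n ≤ I}
  have hT : T.Finite := hfin3.subset fun I hI => hI.2
  have hTne : T.Nonempty := by
    obtain ⟨I, r, hg, hX⟩ := exists_base c
    refine ⟨I, ⟨r, hg⟩, sup_le ?_ ?_⟩
    · exact le_trans (Ideal.pow_le_self (Nat.succ_ne_zero n)) hX
    · rw [Ideal.span_le, Set.singleton_subset_iff]
      exact hg.X_none_sub_mem
  obtain ⟨I, hI⟩ := hT.exists_minimal hTne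
  obtain ⟨⟨r, hr⟩, hN⟩ := hI.1
  refine ⟨I, ⟨r, hr⟩, hN, fun I' r' hg' hN' => ?_⟩
  have h1 : I ⊓ I' ∈ T := ⟨(hr.inf c hg').1, le_inf hN hN'⟩
  exact le_trans (hI.2 h1 inf_le_left) inf_le_right

variable [IsNoetherianRing 𝒪]

/-- the least good ideal containing `Nid n` -/
def Iseq (c : Ctx 𝒟 D ϖ S) (n : ℕ) : Ideal (Lam 𝒪 S) := Classical.choose (exists_least c n)

/-- the corresponding representation -/
def rseq (c : Ctx 𝒟 D ϖ S) (n : ℕ) : GQ →* M2 (Lam 𝒪 S ⧸ Iseq c n) :=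
  Classical.choose (Classical.choose_spec (exists_least c n)).1

lemma good_seq (c : Ctx 𝒟 D ϖ S) (n : ℕ) : Good 𝒟 D ϖ S (Iseq c n) (rseq c n) :=
  Classical.choose_spec (Classical.choose_spec (exists_least c n)).1

lemma Nid_le (c : Ctx 𝒟 D ϖ S) (n : ℕ) : Nid ϖ S n ≤ Iseq c n :=
  (Classical.choose_spec (exists_least c n)).2.1

lemma pow_le (c : Ctx 𝒟 D ϖ S) (n : ℕ) : XI (Option S) 𝒪 ^ (n + 1) ≤ Iseq c n :=
  le_trans le_sup_left (Nid_le c n)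

lemma Iseq_least (c : Ctx 𝒟 D ϖ S) (n : ℕ) {I' : Ideal (Lam 𝒪 S)}
    {r' : GQ →* M2 (Lam 𝒪 S ⧸ I')} (h : Good 𝒟 D ϖ S I' r')
    (hN : XI (Option S) 𝒪 ^ (n + 1) ≤ I') : Iseq c n ≤ I' :=
  (Classical.choose_spec (exists_least c n)).2.2 I' r' h (sup_le hN (by
    rw [Ideal.span_le, Set.singleton_subset_iff]
    exact h.X_none_sub_mem))

lemma Iseq_anti (c : Ctx 𝒟 D ϖ S) : Antitone (Iseq c) :=
  antitone_nat_of_succ_le fun n => Iseq_least c (n + 1) (good_seq c n)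
    (le_trans (Ideal.pow_le_pow_right (Nat.le_succ _)) (pow_le c n))

lemma Iseq_le_sup (c : Ctx 𝒟 D ϖ S) (n : ℕ) {I' : Ideal (Lam 𝒪 S)}
    {r' : GQ →* M2 (Lam 𝒪 S ⧸ I')} (h : Good 𝒟 D ϖ S I' r') :
    Iseq c n ≤ I' ⊔ XI (Option S) 𝒪 ^ (n + 1) := by
  have hne : I' ⊔ XI (Option S) 𝒪 ^ (n + 1) ≠ ⊤ := by
    have h1 : I' ≤ maximalIdeal (Lam 𝒪 S) := IsLocalRing.le_maximalIdeal h.ne_top
    have h2 : XI (Option S) 𝒪 ^ (n + 1) ≤ maximalIdeal (Lam 𝒪 S) :=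
      le_trans (Ideal.pow_le_self (Nat.succ_ne_zero n)) (IsLocalRing.le_maximalIdeal XI_ne_top)
    intro h3
    have := sup_le h1 h2
    rw [h3, top_le_iff] at this
    exact (IsLocalRing.maximalIdeal.isMaximal (Lam 𝒪 S)).ne_top this
  exact Iseq_least c n (h.up c le_sup_left hne) le_sup_right

/-- the kernel of `Λ → R` -/
def Jid (c : Ctx 𝒟 D ϖ S) : Ideal (Lam 𝒪 S) := ⨅ n, Iseq c n

lemma Jid_le_Iseq (c : Ctx 𝒟 D ϖ S) (n : ℕ) : Jid c ≤ Iseq c n := iInf_le _ n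

lemma exists_Iseq_le (c : Ctx 𝒟 D ϖ S) {I' : Ideal (Lam 𝒪 S)}
    {r' : GQ →* M2 (Lam 𝒪 S ⧸ I')} (h : Good 𝒟 D ϖ S I' r') : ∃ n, Iseq c n ≤ I' := by
  obtain ⟨n, hn⟩ := h.exists_pow_le c
  exact ⟨n, Iseq_least c n h (le_trans (Ideal.pow_le_pow_right (Nat.le_succ _)) hn)⟩

lemma Jid_le (c : Ctx 𝒟 D ϖ S) {I' : Ideal (Lam 𝒪 S)}
    {r' : GQ →* M2 (Lam 𝒪 S ⧸ I')} (h : Good 𝒟 D ϖ S I' r') : Jid c ≤ I' := by
  obtain ⟨n, hn⟩ := exists_Iseq_le c h
  exact le_trans (Jid_le_Iseq c n) hn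

/-- the Chevalley type argument -/
theorem Iseq_le_Jid_sup (c : Ctx 𝒟 D ϖ S) (n : ℕ) :
    Iseq c n ≤ Jid c ⊔ XI (Option S) 𝒪 ^ (n + 1) := by
  intro x hx
  have hstep : ∀ (m : ℕ) (z : Lam 𝒪 S), ∃ a, z ∈ Iseq c (n + m) →
      a ∈ Iseq c (n + (m + 1)) ∧ z - a ∈ XI (Option S) 𝒪 ^ (n + m + 1) := by
    intro m z
    by_cases hz : z ∈ Iseq c (n + m)
    · have h1 := Iseq_le_sup c (n + m) (good_seq c (n + (m + 1))) hz
      obtain ⟨a, ha, b, hb, rfl⟩ := Submodule.mem_sup.mp h1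
      exact ⟨a, fun _ => ⟨ha, by simpa using hb⟩⟩
    · exact ⟨0, fun h => absurd h hz⟩
  choose next hnext using hstep
  let y : ℕ → Lam 𝒪 S := fun m => Nat.rec x (fun m z => next m z) m
  have hy0 : y 0 = x := rfl
  have hysucc : ∀ m, y (m + 1) = next m (y m) := fun m => rfl
  have hmem : ∀ m, y m ∈ Iseq c (n + m) := by
    intro m
    induction m with
    | zero => exact hx
    | succ m ih => exact (hnext m (y m) ih).1
  have hdiff : ∀ m, y m - y (m + 1) ∈ XI (Option S) 𝒪 ^ (n + m + 1) := fun m =>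
    (hnext m (y m) (hmem m)).2
  obtain ⟨L, hL⟩ := exists_lim (XI (Option S) 𝒪) y (fun m =>
    Ideal.pow_le_pow_right (by omega) (hdiff m))
  have hLJ : L ∈ Jid c := by
    rw [Jid, Ideal.mem_iInf]
    intro m
    have h1 := hL (m + 1)
    have h2 : y (m + 1) ∈ Iseq c m := Iseq_anti c (by omega) (hmem (m + 1))
    have h3 := Ideal.sub_mem _ h2 (pow_le c m h1)
    simpa using h3
  have htel : ∀ m, x - y m ∈ XI (Option S) 𝒪 ^ (n + 1) := by
    intro m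
    induction m with
    | zero => rw [hy0, sub_self]; exact Ideal.zero_mem _
    | succ m ih =>
      have h1 : y m - y (m + 1) ∈ XI (Option S) 𝒪 ^ (n + 1) :=
        Ideal.pow_le_pow_right (by omega) (hdiff m)
      have := Ideal.add_mem _ ih h1
      simpa using this
  have hfin : x - L ∈ XI (Option S) 𝒪 ^ (n + 1) := by
    have := Ideal.add_mem _ (htel (n + 1)) (hL (n + 1))
    simpa using this
  have : x = L + (x - L) := by ring
  rw [this]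
  exact Submodule.add_mem_sup hLJ hfin

end Fermat.Agent.H04

end
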