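import Fermat.Agent.DefRing.Univ2

set_option autoImplicit false
set_option linter.unusedSectionVars false
set_option linter.unnecessarySimpa false

noncomputable section

namespace Fermat.Agent.H04

open IsLocalRing GaloisRep

variable {𝒪 : Type} [CommRing 𝒪] [IsLocalRing 𝒪]
  {𝒟 : ∀ ⦃A : Type⦄ [CommRing A] [IsLocalRing A] [Algebra 𝒪 A], GaloisRepAdic A → Prop}
  {D : Dat 𝒪} {ϖ : 𝒪} {S : Finset Idx} [IsNoetherianRing 𝒪]

/-- The universal ring. -/
abbrev RU (c : Ctx 𝒟 D ϖ S) : Type := Lam 𝒪 S ⧸ Jid c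

lemma Jid_ne_top (c : Ctx 𝒟 D ϖ S) : Jid c ≠ ⊤ := fun h =>
  (good_seq c 0).ne_top (top_le_iff.mp (h ▸ Jid_le_Iseq c 0))

instance instLocalRU (c : Ctx 𝒟 D ϖ S) : IsLocalRing (RU c) :=
  isLocalRing_quotient (Jid c) (Jid_ne_top c)

/-- the projections -/
def prU (c : Ctx 𝒟 D ϖ S) (n : ℕ) : RU c →ₐ[𝒪] (Lam 𝒪 S ⧸ Iseq c n) :=
  Ideal.Quotient.factorₐ 𝒪 (Jid_le_Iseq c n)

lemma prU_mk (c : Ctx 𝒟 D ϖ S) (n : ℕ) (y : Lam 𝒪 S) :
    prU c n (Ideal.Quotient.mk (Jid c) y) = Ideal.Quotient.mk (Iseq c n) y := rfl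

lemma prU_surjective (c : Ctx 𝒟 D ϖ S) (n : ℕ) : Function.Surjective (prU c n) :=
  Ideal.Quotient.factor_surjective (Jid_le_Iseq c n)

lemma prU_local (c : Ctx 𝒟 D ϖ S) (n : ℕ) :
    IsLocalHom (prU c n : RU c →+* (Lam 𝒪 S ⧸ Iseq c n)) :=
  have := (good_seq c n).loc
  isLocalHom_of_surj _ (prU_surjective c n)

lemma RU_ext (c : Ctx 𝒟 D ϖ S) {x y : RU c} (h : ∀ n, prU c n x = prU c n y) : x = y := by
  obtain ⟨x, rfl⟩ := Ideal.Quotient.mk_surjective x
  obtain ⟨y, rfl⟩ := Ideal.Quotient.mk_surjective y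
  rw [Ideal.Quotient.eq, Jid, Ideal.mem_iInf]
  intro n
  have := h n
  rw [prU_mk, prU_mk, Ideal.Quotient.eq] at this
  exact this

lemma preTest_RU (c : Ctx 𝒟 D ϖ S) : PreTest 𝒪 (RU c) :=
  have := (good_seq c 0).loc
  preTest_of_localHom (prU c 0) (prU_local c 0) (good_seq c 0).test.preTest

lemma constantCoeff_mem_of_not_isUnit {ι : Type} [Finite ι] {p : MvPowerSeries ι 𝒪}
    (hp : p ∈ maximalIdeal (MvPowerSeries ι 𝒪)) :
    MvPowerSeries.constantCoeff p ∈ maximalIdeal 𝒪 := fun hu =>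
  hp (MvPowerSeries.isUnit_iff_constantCoeff.mpr hu)

lemma maximalIdeal_RU (c : Ctx 𝒟 D ϖ S) :
    maximalIdeal (RU c) = (XI (Option S) 𝒪).map (Ideal.Quotient.mk (Jid c)) := by
  have hloc : IsLocalHom (Ideal.Quotient.mk (Jid c)) :=
    IsLocalHom.of_surjective _ Ideal.Quotient.mk_surjective
  refine le_antisymm ?_ ?_
  · intro x hx
    obtain ⟨y, rfl⟩ := Ideal.Quotient.mk_surjective x
    have hy : y ∈ maximalIdeal (Lam 𝒪 S) := fun hu => hx (hu.map _)
    have h1 := constantCoeff_mem_of_not_isUnit hy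
    rw [c.hϖ, Ideal.mem_span_singleton] at h1
    obtain ⟨b, hb⟩ := h1
    have h2 := Ideal.mem_map_of_mem (Ideal.Quotient.mk (Jid c)) (sub_C_mem y)
    rw [map_sub, hb, map_mul, map_mul] at h2
    have h3 : Ideal.Quotient.mk (Jid c) (algebraMap 𝒪 (Lam 𝒪 S) ϖ) ∈
        (XI (Option S) 𝒪).map (Ideal.Quotient.mk (Jid c)) := by
      have h4 : Ideal.Quotient.mk (Jid c) (MvPowerSeries.X none) =
          Ideal.Quotient.mk (Jid c) (algebraMap 𝒪 (Lam 𝒪 S) ϖ) := by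
        rw [Ideal.Quotient.eq, Jid, Ideal.mem_iInf]
        exact fun n => (good_seq c n).X_none_sub_mem
      rw [← h4]
      exact Ideal.mem_map_of_mem _ (Ideal.subset_span ⟨none, rfl⟩)
    have h5 := Ideal.add_mem _ h2 (Ideal.mul_mem_right
      (Ideal.Quotient.mk (Jid c) (algebraMap 𝒪 (Lam 𝒪 S) b)) _ h3)
    simpa using h5
  · rw [Ideal.map_le_iff_le_comap]
    intro y hy
    rw [Ideal.mem_comap]
    intro hu
    have h1 : IsUnit y := hloc.map_nonunit y hu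
    exact (IsLocalRing.le_maximalIdeal XI_ne_top hy) h1

instance instCompleteRU (c : Ctx 𝒟 D ϖ S) : IsAdicComplete (maximalIdeal (RU c)) (RU c) := by
  have h1 : IsAdicComplete (XI (Option S) 𝒪) (RU c) :=
    IsAdicComplete.of_module_finite (XI (Option S) 𝒪) (RU c)
  rw [maximalIdeal_RU]
  exact (IsAdicComplete.map_algebraMap_iff (R := Lam 𝒪 S) (S := RU c) (M := RU c)
    (I := XI (Option S) 𝒪)).mpr h1

/-- the kernel of the projections -/
lemma mem_pow_of_prU_eq_zero (c : Ctx 𝒟 D ϖ S) (n : ℕ) {x : RU c} (h : prU c n x = 0) :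
    x ∈ maximalIdeal (RU c) ^ (n + 1) := by
  obtain ⟨y, rfl⟩ := Ideal.Quotient.mk_surjective x
  rw [prU_mk, Ideal.Quotient.eq_zero_iff_mem] at h
  have h1 := Iseq_le_Jid_sup c n h
  obtain ⟨a, ha, b, hb, rfl⟩ := Submodule.mem_sup.mp h1
  rw [map_add, Ideal.Quotient.eq_zero_iff_mem.mpr ha, zero_add, maximalIdeal_RU, ← Ideal.map_pow]
  exact Ideal.mem_map_of_mem _ hb

lemma prU_eq_zero_of_mem_pow (c : Ctx 𝒟 D ϖ S) (n : ℕ) {x : RU c}
    (h : x ∈ maximalIdeal (RU c) ^ (n + 1)) : prU c n x = 0 := by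
  rw [maximalIdeal_RU, ← Ideal.map_pow] at h
  obtain ⟨y, hy, rfl⟩ := (Ideal.mem_map_iff_of_surjective _ Ideal.Quotient.mk_surjective).mp h
  rw [prU_mk, Ideal.Quotient.eq_zero_iff_mem]
  exact pow_le c n hy

/-- lifting compatible sequences -/
theorem exists_lift (c : Ctx 𝒟 D ϖ S) (a : ∀ n, Lam 𝒪 S ⧸ Iseq c n)
    (ha : ∀ n, Ideal.Quotient.factor (Iseq_anti c (Nat.le_succ n)) (a (n + 1)) = a n) :
    ∃ x : RU c, ∀ n, prU c n x = a n := by
  choose y hy using fun n => Ideal.Quotient.mk_surjective (a n)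
  have h1 : ∀ n, Ideal.Quotient.mk (Jid c) (y n) - Ideal.Quotient.mk (Jid c) (y (n + 1)) ∈
      maximalIdeal (RU c) ^ (n + 1) := by
    intro n
    refine mem_pow_of_prU_eq_zero c n ?_
    rw [map_sub, prU_mk, prU_mk, hy, ← ha n, ← hy (n + 1), Ideal.Quotient.factor_mk, sub_self]
  obtain ⟨L, hL⟩ := exists_lim (maximalIdeal (RU c)) (fun n => Ideal.Quotient.mk (Jid c) (y n))
    (fun n => Ideal.pow_le_pow_right (Nat.le_succ n) (h1 n))
  refine ⟨L, fun n => ?_⟩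
  have h2 := prU_eq_zero_of_mem_pow c n (hL (n + 1))
  rw [map_sub, prU_mk, sub_eq_zero] at h2
  rw [← h2, ← ha n, ← hy (n + 1), Ideal.Quotient.factor_mk]

lemma rseq_compat (c : Ctx 𝒟 D ϖ S) {m n : ℕ} (h : m ≤ n) (σ : GQ) (i j : Fin 2) :
    Ideal.Quotient.factor (Iseq_anti c h) (rseq c n σ i j) = rseq c m σ i j := by
  have := (good_seq c n).factor_eq c (good_seq c m) (Iseq_anti c h)
  rw [← this]
  rfl

/-- The universal representation. -/
theorem exists_rU (c : Ctx 𝒟 D ϖ S) : ∃ r : GQ →* M2 (RU c), ∀ n,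
    mapM (prU c n : RU c →+* (Lam 𝒪 S ⧸ Iseq c n)) r = rseq c n := by
  choose f hf using fun (p : Idx) => exists_lift c (fun n => rseq c n p.1 p.2.1 p.2.2)
    (fun n => rseq_compat c (Nat.le_succ n) _ _ _)
  refine ⟨{ toFun := fun σ => Matrix.of fun i j => f (σ, i, j), map_one' := ?_, map_mul' := ?_ },
    fun n => ?_⟩
  · ext i j
    refine RU_ext c fun n => ?_
    rw [Matrix.of_apply, hf]
    simp only [map_one]
    by_cases hij : i = j
    · subst hij; simp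
    · simp [hij]
  · intro σ τ
    ext i j
    refine RU_ext c fun n => ?_
    rw [Matrix.of_apply, hf, Matrix.mul_apply]
    simp only [map_mul, Matrix.mul_apply, map_sum, Matrix.of_apply, hf]
  · ext σ i j
    exact hf (σ, i, j) n

/-- The universal representation. -/
def rU (c : Ctx 𝒟 D ϖ S) : GQ →* M2 (RU c) := Classical.choose (exists_rU c)

lemma rU_spec (c : Ctx 𝒟 D ϖ S) (n : ℕ) :
    mapM (prU c n : RU c →+* (Lam 𝒪 S ⧸ Iseq c n)) (rU c) = rseq c n :=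
  Classical.choose_spec (exists_rU c) n

theorem isNRep_rU (c : Ctx 𝒟 D ϖ S) : IsNRep D (rU c) where
  cont n := by
    have := (good_seq c n).loc
    have := (good_seq c n).test.isArtinian
    obtain ⟨L, hL, h1⟩ := (good_seq c n).nrep.cont.finLevel
    refine ⟨L, hL, fun σ hσ i j => ?_⟩
    refine Ideal.pow_le_pow_right (Nat.le_succ n) (mem_pow_of_prU_eq_zero c n ?_)
    have h2 := h1 σ hσ i j
    rw [← rU_spec, mapM_apply] at h2
    rw [map_sub, sub_eq_zero]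
    refine h2.trans ?_
    by_cases hij : i = j
    · subst hij; simp
    · simp [hij]
  red σ i j hu := by
    have := (good_seq c 0).loc
    have h1 := (good_seq c 0).nrep.red σ i j
    have h0 : prU c 0 (rU c σ i j) = rseq c 0 σ i j := by rw [← rU_spec]; rfl
    apply h1
    have h2 := hu.map (prU c 0)
    rw [map_sub, AlgHom.commutes, h0] at h2
    exact h2
  n01 := RU_ext c fun n => by
    have := (good_seq c n).loc
    rw [← act_mapM, rU_spec, (good_seq c n).nrep.n01, map_zero]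
  n10 := RU_ext c fun n => by
    have := (good_seq c n).loc
    rw [← act_mapM, rU_spec, (good_seq c n).nrep.n10, map_zero]
  nf := RU_ext c fun n => by
    have := (good_seq c n).loc
    rw [← act_mapM, rU_spec, (good_seq c n).nrep.nf, map_one]

lemma gens_RU (c : Ctx 𝒟 D ϖ S) (i : Option S) :
    Ideal.Quotient.mk (Jid c) (MvPowerSeries.X i) = gen D ϖ S (rU c) i :=
  RU_ext c fun n => by
    rw [prU_mk, (good_seq c n).gens, ← gen_map, rU_spec]

/-- existence for Artinian test algebras -/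
theorem exists_hom_artin (c : Ctx 𝒟 D ϖ S) {B : Type} [CommRing B] [IsLocalRing B] [Algebra 𝒪 B]
    (hB : IsArtinianTestAlgebra 𝒪 B) {r : GQ →* M2 B} (hr : IsNRep D r) (tr : HasType 𝒟 r) :
    ∃ φ : RU c →ₐ[𝒪] B, IsLocalHom (φ : RU c →+* B) ∧ mapM (φ : RU c →+* B) (rU c) = r := by
  obtain ⟨f, r', hf, hg, hmap⟩ := exists_good c hB hr tr
  let φ : RU c →ₐ[𝒪] B := Ideal.Quotient.liftₐ (Jid c) f (fun a ha => Jid_le c hg ha)
  have hφ : ∀ y, φ (Ideal.Quotient.mk (Jid c) y) = f y := fun y => rfl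
  refine ⟨φ, ?_, ?_⟩
  · refine ((IsLocalRing.local_hom_TFAE (φ : RU c →+* B)).out 0 2).mpr ?_
    rw [maximalIdeal_RU, Ideal.map_map, XI, Ideal.map_span, Ideal.span_le]
    rintro _ ⟨_, ⟨i, rfl⟩, rfl⟩
    change f (MvPowerSeries.X i) ∈ maximalIdeal B
    rw [hf]
    exact gen_mem c.hϖm hB.isLocalHom S hr i
  · obtain ⟨n, hn⟩ := exists_Iseq_le c hg
    have h1 := (good_seq c n).factor_eq c hg hn
    ext σ i j
    obtain ⟨y, hy⟩ := Ideal.Quotient.mk_surjective (rU c σ i j)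
    have h2 : rseq c n σ i j = Ideal.Quotient.mk (Iseq c n) y := by
      rw [← rU_spec, mapM_apply, ← hy]; rfl
    have h3 : r' σ i j = Ideal.Quotient.mk (RingHom.ker f) y := by
      rw [← h1, mapM_apply, h2, Ideal.Quotient.factor_mk]
    rw [← hmap, mapM_apply, mapM_apply, h3, ← hy]
    rfl

/-- uniqueness for Artinian test algebras -/
theorem hom_unique_artin (c : Ctx 𝒟 D ϖ S) {B : Type} [CommRing B] [IsLocalRing B] [Algebra 𝒪 B]
    (hB : IsArtinianTestAlgebra 𝒪 B) (φ ψ : RU c →ₐ[𝒪] B) (hφ : IsLocalHom (φ : RU c →+* B))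
    (h : mapM (φ : RU c →+* B) (rU c) = mapM (ψ : RU c →+* B) (rU c)) : φ = ψ := by
  have := hB.isArtinian
  obtain ⟨n, hnil⟩ := (isArtinianRing_iff_isNilpotent_maximalIdeal B).mp inferInstance
  have h1 : φ.comp (Ideal.Quotient.mkₐ 𝒪 (Jid c)) = ψ.comp (Ideal.Quotient.mkₐ 𝒪 (Jid c)) := by
    refine algHom_unique _ _ (maximalIdeal B) (fun i => ?_) (fun i => ?_) hnil
    · rw [AlgHom.comp_apply, Ideal.Quotient.mkₐ_eq_mk, gens_RU, ← gen_map]
      exact gen_mem c.hϖm hB.isLocalHom S ((isNRep_rU c).map φ hφ) i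
    · rw [AlgHom.comp_apply, AlgHom.comp_apply, Ideal.Quotient.mkₐ_eq_mk, gens_RU, ← gen_map,
        ← gen_map, h]
  ext x
  obtain ⟨y, rfl⟩ := Ideal.Quotient.mk_surjective x
  exact congrArg (fun F => F y) h1

end Fermat.Agent.H04

end
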